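import Fermat.Agent.S05.Model

/-!
# The abstract model attached to a Weierstrass curve with a rational two-torsion point
-/

set_option autoImplicit false

namespace Fermat.Agent.S05

open WeierstrassCurve WeierstrassCurve.Affine

variable {L : Type*} [Field L] [DecidableEq L] [CharZero L]

/-- shifted `x`-coordinate -/
def ptX (W : Affine L) (x₀ : L) : W.Point → L
  | .zero => 0
  | .some x _ _ => x - x₀

/-- `y + (a₁ x + a₃) / 2` -/
def ptη (W : Affine L) : W.Point → L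
  | .zero => 0
  | .some x y _ => y + (W.a₁ * x + W.a₃) / 2

lemma dbl_identity (a₁ a₂ a₃ a₄ x y x₀ D : L) (hD : D ≠ 0) (hDy : D = 2 * y + a₁ * x + a₃) :
    ((3 * x ^ 2 + 2 * a₂ * x + a₄ - a₁ * y) / D) ^ 2
      + a₁ * ((3 * x ^ 2 + 2 * a₂ * x + a₄ - a₁ * y) / D) - a₂ - x - x - x₀ =
    ((3 * (x - x₀) ^ 2 + 2 * (3 * x₀ + (a₂ + a₁ ^ 2 / 4)) * (x - x₀)
      + (3 * x₀ ^ 2 + 2 * (a₂ + a₁ ^ 2 / 4) * x₀ + (a₄ + a₁ * a₃ / 2))) / D) ^ 2
      - (3 * x₀ + (a₂ + a₁ ^ 2 / 4)) - 2 * (x - x₀) := by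
  have h : 3 * (x - x₀) ^ 2 + 2 * (3 * x₀ + (a₂ + a₁ ^ 2 / 4)) * (x - x₀)
      + (3 * x₀ ^ 2 + 2 * (a₂ + a₁ ^ 2 / 4) * x₀ + (a₄ + a₁ * a₃ / 2)) =
      (3 * x ^ 2 + 2 * a₂ * x + a₄ - a₁ * y) + a₁ * D / 2 := by
    rw [hDy]; ring
  rw [h]
  generalize 3 * x ^ 2 + 2 * a₂ * x + a₄ - a₁ * y = N
  field_simp
  ring

/-- The abstract model attached to a Weierstrass curve and a root `x₀` of the two-division
polynomial. -/
def modelOf (W : Affine L) (x₀ r s : L)
    (hr : r = 3 * x₀ + (W.a₂ + W.a₁ ^ 2 / 4))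
    (hs : s = 3 * x₀ ^ 2 + 2 * (W.a₂ + W.a₁ ^ 2 / 4) * x₀ + (W.a₄ + W.a₁ * W.a₃ / 2))
    (h0 : x₀ ^ 3 + (W.a₂ + W.a₁ ^ 2 / 4) * x₀ ^ 2 + (W.a₄ + W.a₁ * W.a₃ / 2) * x₀
      + (W.a₆ + W.a₃ ^ 2 / 4) = 0) :
    Model W.Point L r s where
  X := ptX W x₀
  η := ptη W
  eqn := by
    rintro (_ | ⟨x, y, h⟩) hP
    · exact absurd rfl hP
    · have he := (W.equation_iff x y).mp h.1
      simp only [ptX, ptη]
      rw [hr, hs]
      linear_combination he + h0
  X_neg := by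
    rintro (_ | ⟨x, y, h⟩)
    · rfl
    · rfl
  η_neg := by
    rintro (_ | ⟨x, y, h⟩)
    · simp [ptη, ← Point.zero_def]
    · rw [Point.neg_some]
      simp only [ptη, negY]
      ring
  ext := by
    rintro (_ | ⟨x, y, h⟩) (_ | ⟨x', y', h'⟩) hP hQ hX hη
    · rfl
    · exact absurd rfl hP
    · exact absurd rfl hQ
    · simp only [ptX, ptη] at hX hη
      have hx : x = x' := by linear_combination hX
      subst hx
      have hy : y = y' := by linear_combination hη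
      subst hy
      rfl
  add := by
    rintro (_ | ⟨x₁, y₁, h₁⟩) (_ | ⟨x₂, y₂, h₂⟩) hP hQ hX
    · exact absurd rfl hP
    · exact absurd rfl hP
    · exact absurd rfl hQ
    · simp only [ptX] at hX
      have hx : x₁ ≠ x₂ := fun h => hX (by rw [h])
      have hd : x₁ - x₂ ≠ 0 := sub_ne_zero.mpr hx
      rw [Point.add_of_X_ne hx]
      simp only [ptX, ptη, addX]
      rw [slope_of_X_ne hx, hr, show x₁ - x₀ - (x₂ - x₀) = x₁ - x₂ by ring]
      field_simp
      ring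
  dbl := by
    rintro (_ | ⟨x, y, h⟩) hP hη
    · exact absurd rfl hP
    · simp only [ptη] at hη
      have hd'' : 2 * y + W.a₁ * x + W.a₃ ≠ 0 := by
        intro h0
        apply hη
        linear_combination h0 / 2
      have hy : y ≠ W.negY x y := by
        intro hy
        apply hd''
        simp only [negY] at hy
        linear_combination hy
      rw [Point.add_self_of_Y_ne hy]
      simp only [ptX, ptη, addX]
      rw [slope_of_Y_ne rfl hy, hr, hs]
      simp only [negY]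
      have e1 : y - (-y - W.a₁ * x - W.a₃) = 2 * y + W.a₁ * x + W.a₃ := by ring
      have e2 : 2 * (y + (W.a₁ * x + W.a₃) / 2) = 2 * y + W.a₁ * x + W.a₃ := by ring
      rw [e1, e2]
      exact dbl_identity _ _ _ _ _ _ _ _ hd'' rfl

@[simp] lemma modelOf_X_some (W : Affine L) (x₀ r s : L) (hr hs h0)
    {x y : L} (h : W.Nonsingular x y) :
    (modelOf W x₀ r s hr hs h0).X (.some x y h) = x - x₀ := rfl

@[simp] lemma modelOf_η_some (W : Affine L) (x₀ r s : L) (hr hs h0)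
    {x y : L} (h : W.Nonsingular x y) :
    (modelOf W x₀ r s hr hs h0).η (.some x y h) = y + (W.a₁ * x + W.a₃) / 2 := rfl

end Fermat.Agent.S05
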