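import Fermat.Statements.S05

/-!
# Unfolding the inertia subgroup
-/

set_option autoImplicit false

namespace Fermat.Agent.S05

lemma inertia_spec {K L : Type*} [Field K] [Field L] [Algebra K L] (A : ValuationSubring L)
    {σ : L ≃ₐ[K] L} (hσ : σ ∈ A.inertiaSubgroupIn K) (a : L) (ha : A.valuation a ≤ 1) :
    A.valuation (σ a - a) < 1 := by
  unfold ValuationSubring.inertiaSubgroupIn at hσ
  rw [Subgroup.mem_map] at hσ
  obtain ⟨g, hg, rfl⟩ := hσ
  unfold ValuationSubring.inertiaSubgroup at hg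
  rw [MonoidHom.mem_ker] at hg
  have ha' : a ∈ A := (A.valuation_le_one_iff a).mp ha
  have h1 : (MulSemiringAction.toRingAut (A.decompositionSubgroup K)
      (IsLocalRing.ResidueField A) g) (IsLocalRing.residue A ⟨a, ha'⟩)
      = IsLocalRing.residue A ⟨a, ha'⟩ := by
    rw [hg]; rfl
  have h2 : (MulSemiringAction.toRingAut (A.decompositionSubgroup K)
      (IsLocalRing.ResidueField A) g) (IsLocalRing.residue A ⟨a, ha'⟩)
      = IsLocalRing.residue A (g • (⟨a, ha'⟩ : A)) := by
    rw [IsLocalRing.ResidueField.residue_smul]; rfl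
  rw [h2] at h1
  have h3 : IsLocalRing.residue A (g • (⟨a, ha'⟩ : A) - ⟨a, ha'⟩) = 0 := by
    rw [map_sub, h1, sub_self]
  rw [IsLocalRing.residue_eq_zero_iff, A.valuation_lt_one_iff] at h3
  exact h3

end Fermat.Agent.S05
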