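import Fermat.Agent.S05.Fix
import Fermat.Agent.S05.Curve
import Fermat.Agent.S05.Inertia

/-!
# The Frey curve: glue
-/

set_option autoImplicit false

namespace Fermat.Agent.S05

open WeierstrassCurve WeierstrassCurve.Affine WeierstrassCurve.Affine.Point

local notation "Qbar" => AlgebraicClosure ℚ

section IntVal

variable {L : Type*} [Field L] {Γ₀ : Type*} [LinearOrderedCommGroupWithZero Γ₀]
  (v : Valuation L Γ₀)

lemma val_int_le_one (n : ℤ) : v (n : L) ≤ 1 := by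
  have : (n : L) ∈ v.integer := intCast_mem _ n
  exact this

lemma val_int_lt_one {q : ℕ} (hq : v (q : L) < 1) {n : ℤ} (h : (q : ℤ) ∣ n) : v (n : L) < 1 := by
  obtain ⟨m, rfl⟩ := h
  push_cast
  rw [map_mul]
  exact mul_lt_one_of_nonneg_of_lt_one_left zero_le hq (val_int_le_one v m)

lemma val_int_eq_one {q : ℕ} (hqp : q.Prime) (hq : v (q : L) < 1) {n : ℤ} (h : ¬ (q : ℤ) ∣ n) :
    v (n : L) = 1 := by
  have hcop : IsCoprime (q : ℤ) n :=
    (Prime.coprime_iff_not_dvd (Nat.prime_iff_prime_int.mp hqp)).mpr h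
  obtain ⟨x, y, hxy⟩ := hcop
  have h1 : (x : L) * (q : L) + (y : L) * (n : L) = 1 := by exact_mod_cast congrArg (Int.cast : ℤ → L) hxy
  have h2 : v ((x : L) * (q : L)) < 1 := by
    rw [map_mul]
    exact mul_lt_one_of_nonneg_of_lt_one_right (val_int_le_one v x) zero_le hq
  have h3 : v ((y : L) * (n : L)) = 1 := by
    have : (y : L) * (n : L) = 1 - (x : L) * (q : L) := by linear_combination h1
    rw [this]
    exact val_one_sub_eq_one v h2
  rw [map_mul] at h3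
  apply le_antisymm (val_int_le_one v n)
  calc 1 = v (y : L) * v (n : L) := h3.symm
    _ ≤ 1 * v (n : L) := by gcongr; exact val_int_le_one v y
    _ = v (n : L) := one_mul _

end IntVal

variable (P : FreyPackage)

lemma frey_a₁ : (P.freyCurve⁄Qbar).a₁ = 1 := by simp [FreyPackage.freyCurve]
lemma frey_a₂ : (P.freyCurve⁄Qbar).a₂ = ((P.b : Qbar) ^ P.p - 1 - (P.a : Qbar) ^ P.p) / 4 := by
  simp [FreyPackage.freyCurve]
lemma frey_a₃ : (P.freyCurve⁄Qbar).a₃ = 0 := by simp [FreyPackage.freyCurve]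
lemma frey_a₄ : (P.freyCurve⁄Qbar).a₄ = -((P.a : Qbar) ^ P.p) * ((P.b : Qbar) ^ P.p) / 16 := by
  simp [FreyPackage.freyCurve]
lemma frey_a₆ : (P.freyCurve⁄Qbar).a₆ = 0 := by simp [FreyPackage.freyCurve]

/-- The action of an inertia element on the model. -/
noncomputable def actionOf (A : ValuationSubring Qbar) (σ : Qbar ≃ₐ[ℚ] Qbar)
    (hσ : σ ∈ A.inertiaSubgroupIn ℚ) (x₀ r s : Qbar) (hr hs h0) (hx₀ : σ x₀ = x₀) :
    Action (modelOf (P.freyCurve⁄Qbar) x₀ r s hr hs h0) A.valuation where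
  σ := (σ : Qbar →+* Qbar)
  τ := Point.map (W' := P.freyCurve) σ.toAlgHom
  τ_ne := by
    rintro (_ | ⟨x, y, h⟩) hP
    · exact absurd rfl hP
    · rw [map_some]; exact some_ne_zero _
  X_τ := by
    rintro (_ | ⟨x, y, h⟩) hP
    · exact absurd rfl hP
    · rw [map_some, modelOf_X_some, modelOf_X_some]
      simp [hx₀]
  η_τ := by
    rintro (_ | ⟨x, y, h⟩) hP
    · exact absurd rfl hP
    · rw [map_some, modelOf_η_some, modelOf_η_some, frey_a₁, frey_a₃]
      have h2 : σ 2 = 2 := map_ofNat σ 2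
      simp [h2]
  inertia := fun a ha => inertia_spec A hσ a ha


theorem frey_fix {q : ℕ} (hq : q.Prime) (hq2 : q ≠ 2) (hqp : q ≠ P.p)
    (A : ValuationSubring Qbar) (hA : A.LiesOverPrime q) (σ : Qbar ≃ₐ[ℚ] Qbar)
    (hσ : σ ∈ A.inertiaSubgroupIn ℚ) (x : (P.freyCurve⁄Qbar).Point) (hx : P.p • x = 0) :
    Point.map (W' := P.freyCurve) σ.toAlgHom x = x := by
  set v := A.valuation with hv
  have hvq : v (q : Qbar) < 1 := (A.mem_nonunits_iff).mp hA
  have h2 : v (2 : Qbar) = 1 := by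
    have := val_int_eq_one v hq hvq (n := 2) (by
      intro h
      have h' : q ∣ 2 := by exact_mod_cast h
      exact hq2 ((Nat.prime_dvd_prime_iff_eq hq Nat.prime_two).mp h'))
    simpa using this
  have hpv : v (P.p : Qbar) = 1 := by
    have := val_int_eq_one v hq hvq (n := (P.p : ℤ)) (by
      intro h
      have h' : q ∣ P.p := by exact_mod_cast h
      exact hqp ((Nat.prime_dvd_prime_iff_eq hq P.pp).mp h'))
    simpa using this
  have h4 : v (4 : Qbar) = 1 := val_four v h2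
  have h16 : v (16 : Qbar) = 1 := by
    have : (16 : Qbar) = 4 * 4 := by norm_num
    rw [this, map_mul, h4, one_mul]
  have hp0 : P.p ≠ 0 := P.hp0
  set α : Qbar := (P.a : Qbar) ^ P.p with hα
  set β : Qbar := (P.b : Qbar) ^ P.p with hβ
  set γ : Qbar := (P.c : Qbar) ^ P.p with hγ
  have hαβγ : α + β = γ := by
    rw [hα, hβ, hγ]
    exact_mod_cast congrArg (Int.cast : ℤ → Qbar) P.hFLT
  have hpow1 : ∀ n : ℤ, ¬ (q : ℤ) ∣ n → v ((n : Qbar) ^ P.p) = 1 := by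
    intro n hn
    rw [map_pow, val_int_eq_one v hq hvq hn, one_pow]
  have hpowlt : ∀ n : ℤ, (q : ℤ) ∣ n → v ((n : Qbar) ^ P.p) < 1 := by
    intro n hn
    rw [map_pow]
    exact pow_lt_one₀ zero_le (val_int_lt_one v hvq hn) hp0
  have hpowle : ∀ n : ℤ, v ((n : Qbar) ^ P.p) ≤ 1 := by
    intro n
    rw [map_pow]
    exact pow_le_one₀ zero_le (val_int_le_one v n)
  have hqprime : Prime (q : ℤ) := Nat.prime_iff_prime_int.mp hq
  have ha0 : (P.a : Qbar) ≠ 0 := by exact_mod_cast P.ha0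
  have hb0 : (P.b : Qbar) ≠ 0 := by exact_mod_cast P.hb0
  have hc0 : (P.c : Qbar) ≠ 0 := by exact_mod_cast P.hc0
  have hα0 : α ≠ 0 := pow_ne_zero _ ha0
  have hβ0 : β ≠ 0 := pow_ne_zero _ hb0
  have hγ0 : γ ≠ 0 := pow_ne_zero _ hc0
  have hσint : ∀ n : ℤ, σ (n : Qbar) = n := fun n => map_intCast σ n
  by_cases hc : (q : ℤ) ∣ P.c
  · -- multiplicative reduction, node at `x = α / 4`
    have hna : ¬ (q : ℤ) ∣ P.a := by
      intro ha
      have h1 : (q : ℤ) ∣ gcd P.a P.c := dvd_gcd ha hc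
      rw [P.hgcdac] at h1
      exact hqprime.not_isUnit (isUnit_of_dvd_one h1)
    have hr : (α + γ) / 4 = 3 * (α / 4) + ((P.freyCurve⁄Qbar).a₂ + (P.freyCurve⁄Qbar).a₁ ^ 2 / 4) := by
      rw [frey_a₁, frey_a₂, ← hαβγ]; ring
    have hs : α * γ / 16 = 3 * (α / 4) ^ 2
        + 2 * ((P.freyCurve⁄Qbar).a₂ + (P.freyCurve⁄Qbar).a₁ ^ 2 / 4) * (α / 4)
        + ((P.freyCurve⁄Qbar).a₄ + (P.freyCurve⁄Qbar).a₁ * (P.freyCurve⁄Qbar).a₃ / 2) := by
      rw [frey_a₁, frey_a₂, frey_a₃, frey_a₄, ← hαβγ]; ring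
    have h0 : (α / 4) ^ 3 + ((P.freyCurve⁄Qbar).a₂ + (P.freyCurve⁄Qbar).a₁ ^ 2 / 4) * (α / 4) ^ 2
        + ((P.freyCurve⁄Qbar).a₄ + (P.freyCurve⁄Qbar).a₁ * (P.freyCurve⁄Qbar).a₃ / 2) * (α / 4)
        + ((P.freyCurve⁄Qbar).a₆ + (P.freyCurve⁄Qbar).a₃ ^ 2 / 4) = 0 := by
      rw [frey_a₁, frey_a₂, frey_a₃, frey_a₄, frey_a₆]; ring
    have hσx₀ : σ (α / 4) = α / 4 := by
      rw [map_div₀, hα, map_pow, hσint, map_ofNat]
    have hs0 : α * γ / 16 ≠ 0 := div_ne_zero (mul_ne_zero hα0 hγ0) (by norm_num)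
    have hTns : (P.freyCurve⁄Qbar).Nonsingular (α / 4) (-(α / 4) / 2) := by
      rw [Affine.nonsingular_iff, Affine.equation_iff, frey_a₁, frey_a₂, frey_a₃, frey_a₄, frey_a₆]
      refine ⟨by ring, Or.inl ?_⟩
      intro h
      apply hs0
      rw [← hαβγ]
      linear_combination -h
    refine Model.fix_of_mult (actionOf P A σ hσ (α / 4) ((α + γ) / 4) (α * γ / 16) hr hs h0 hσx₀)
      ?_ hs0 ?_ h2 P.pp P.hp5 hpv (T := Point.some _ _ hTns) (some_ne_zero _) ?_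
      (d := (P.a : Qbar) * (P.c : Qbar)) ?_ ?_ hx
    · rw [map_div₀, h4, div_one, v.map_add_eq_of_lt_left]
      · exact hpow1 _ hna
      · rw [hpow1 _ hna]; exact hpowlt _ hc
    · rw [map_div₀, h16, div_one, map_mul, hpow1 _ hna, one_mul]
      exact hpowlt _ hc
    · rw [modelOf_X_some, sub_self]
    · show σ _ = _
      rw [map_mul, hσint, hσint]
    · rw [map_div₀, h16, div_one, hα, hγ, ← mul_pow, map_pow]
  · by_cases hab : (q : ℤ) ∣ P.a * P.b
    · -- multiplicative reduction, node at `x = 0`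
      have hr : (β - α) / 4 = 3 * 0 + ((P.freyCurve⁄Qbar).a₂ + (P.freyCurve⁄Qbar).a₁ ^ 2 / 4) := by
        rw [frey_a₁, frey_a₂]; ring
      have hs : -α * β / 16 = 3 * (0 : Qbar) ^ 2
          + 2 * ((P.freyCurve⁄Qbar).a₂ + (P.freyCurve⁄Qbar).a₁ ^ 2 / 4) * 0
          + ((P.freyCurve⁄Qbar).a₄ + (P.freyCurve⁄Qbar).a₁ * (P.freyCurve⁄Qbar).a₃ / 2) := by
        rw [frey_a₁, frey_a₂, frey_a₃, frey_a₄]; ring
      have h0 : (0 : Qbar) ^ 3 + ((P.freyCurve⁄Qbar).a₂ + (P.freyCurve⁄Qbar).a₁ ^ 2 / 4) * 0 ^ 2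
          + ((P.freyCurve⁄Qbar).a₄ + (P.freyCurve⁄Qbar).a₁ * (P.freyCurve⁄Qbar).a₃ / 2) * 0
          + ((P.freyCurve⁄Qbar).a₆ + (P.freyCurve⁄Qbar).a₃ ^ 2 / 4) = 0 := by
        rw [frey_a₁, frey_a₂, frey_a₃, frey_a₄, frey_a₆]; ring
      have hs0 : -α * β / 16 ≠ 0 := div_ne_zero (mul_ne_zero (neg_ne_zero.mpr hα0) hβ0) (by norm_num)
      have hTns : (P.freyCurve⁄Qbar).Nonsingular 0 0 := by
        rw [Affine.nonsingular_iff, Affine.equation_iff, frey_a₁, frey_a₂, frey_a₃, frey_a₄, frey_a₆]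
        refine ⟨by ring, Or.inl ?_⟩
        intro h
        apply hs0
        linear_combination -h
      refine Model.fix_of_mult (actionOf P A σ hσ 0 ((β - α) / 4) (-α * β / 16) hr hs h0 (map_zero σ))
        ?_ hs0 ?_ h2 P.pp P.hp5 hpv (T := Point.some _ _ hTns) (some_ne_zero _) ?_
        (d := (P.a : Qbar) * (P.b : Qbar)) ?_ ?_ hx
      · rw [map_div₀, h4, div_one]
        rcases hqprime.dvd_or_dvd hab with ha | hb
        · have hnb : ¬ (q : ℤ) ∣ P.b := by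
            intro hb
            have h1 : (q : ℤ) ∣ gcd P.a P.b := dvd_gcd ha hb
            rw [P.hgcdab] at h1
            exact hqprime.not_isUnit (isUnit_of_dvd_one h1)
          rw [v.map_sub_eq_of_lt_left]
          · exact hpow1 _ hnb
          · rw [hpow1 _ hnb]; exact hpowlt _ ha
        · have hna : ¬ (q : ℤ) ∣ P.a := by
            intro ha
            have h1 : (q : ℤ) ∣ gcd P.a P.b := dvd_gcd ha hb
            rw [P.hgcdab] at h1
            exact hqprime.not_isUnit (isUnit_of_dvd_one h1)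
          rw [v.map_sub_eq_of_lt_right]
          · exact hpow1 _ hna
          · rw [hpow1 _ hna]; exact hpowlt _ hb
      · rw [map_div₀, h16, div_one, map_mul, Valuation.map_neg, hα, hβ, ← map_mul, ← mul_pow]
        have := hpowlt _ hab
        push_cast at this
        exact this
      · rw [modelOf_X_some, sub_self]
      · show σ _ = _
        rw [map_mul, hσint, hσint]
      · rw [map_div₀, h16, div_one, map_mul, Valuation.map_neg, hα, hβ, ← map_mul, ← mul_pow, map_pow]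
    · -- good reduction
      have hna : ¬ (q : ℤ) ∣ P.a := fun h => hab (Dvd.dvd.mul_right h _)
      have hnb : ¬ (q : ℤ) ∣ P.b := fun h => hab (Dvd.dvd.mul_left h _)
      have hr : (β - α) / 4 = 3 * 0 + ((P.freyCurve⁄Qbar).a₂ + (P.freyCurve⁄Qbar).a₁ ^ 2 / 4) := by
        rw [frey_a₁, frey_a₂]; ring
      have hs : -α * β / 16 = 3 * (0 : Qbar) ^ 2
          + 2 * ((P.freyCurve⁄Qbar).a₂ + (P.freyCurve⁄Qbar).a₁ ^ 2 / 4) * 0
          + ((P.freyCurve⁄Qbar).a₄ + (P.freyCurve⁄Qbar).a₁ * (P.freyCurve⁄Qbar).a₃ / 2) := by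
        rw [frey_a₁, frey_a₂, frey_a₃, frey_a₄]; ring
      have h0 : (0 : Qbar) ^ 3 + ((P.freyCurve⁄Qbar).a₂ + (P.freyCurve⁄Qbar).a₁ ^ 2 / 4) * 0 ^ 2
          + ((P.freyCurve⁄Qbar).a₄ + (P.freyCurve⁄Qbar).a₁ * (P.freyCurve⁄Qbar).a₃ / 2) * 0
          + ((P.freyCurve⁄Qbar).a₆ + (P.freyCurve⁄Qbar).a₃ ^ 2 / 4) = 0 := by
        rw [frey_a₁, frey_a₂, frey_a₃, frey_a₄, frey_a₆]; ring
      refine Model.fix_of_good (actionOf P A σ hσ 0 ((β - α) / 4) (-α * β / 16) hr hs h0 (map_zero σ))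
        ?_ ?_ ?_ h2 P.pp P.hp5 hpv hx
      · rw [map_div₀, h4, div_one]
        exact v.map_sub_le (hpowle _) (hpowle _)
      · rw [map_div₀, h16, div_one, map_mul, Valuation.map_neg, hpow1 _ hna, hpow1 _ hnb, one_mul]
      · have : ((β - α) / 4) ^ 2 - 4 * (-α * β / 16) = γ ^ 2 / 16 := by
          rw [← hαβγ]; ring
        rw [this, map_div₀, h16, div_one, map_pow, hpow1 _ hc, one_pow]

end Fermat.Agent.S05
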