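import Fermat.Agent.S05.K3

/-!
# Inertia fixes the `p`-torsion (abstract form)
-/

set_option autoImplicit false

namespace Fermat.Agent.S05

variable {G : Type*} [AddCommGroup G] {L : Type*} [Field L] {r s : L}
variable {Γ₀ : Type*} [LinearOrderedCommGroupWithZero Γ₀]

/-- An automorphism acting like an element of the inertia group. -/
structure Action (M : Model G L r s) (v : Valuation L Γ₀) where
  σ : L →+* L
  τ : G →+ G
  τ_ne : ∀ P, P ≠ 0 → τ P ≠ 0
  X_τ : ∀ P, P ≠ 0 → M.X (τ P) = σ (M.X P)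
  η_τ : ∀ P, P ≠ 0 → M.η (τ P) = σ (M.η P)
  inertia : ∀ a, v a ≤ 1 → v (σ a - a) < 1

namespace Model

variable (M : Model G L r s) (v : Valuation L Γ₀)

lemma one_lt_val_X_sub (hr : v r ≤ 1) {P Q : G} (hP : P ≠ 0) (hQ : Q ≠ 0)
    (hne : M.X P ≠ M.X Q) (hXP : v (M.X P) ≤ 1) (hXQ : v (M.X Q) ≤ 1)
    (h : v (M.X P - M.X Q) < v (M.η P + M.η Q)) : 1 < v (M.X (P - Q)) := by
  rw [M.sub hP hQ hne]
  have hd : v (M.X P - M.X Q) ≠ 0 := (v.ne_zero_iff).mpr (sub_ne_zero.mpr hne)
  have h1 : 1 < v (((M.η P + M.η Q) / (M.X P - M.X Q)) ^ 2) := by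
    rw [map_pow, map_div₀]
    apply one_lt_pow₀ _ two_ne_zero
    rw [one_lt_div₀ (zero_lt_iff.mpr hd)]
    exact h
  have e : ((M.η P + M.η Q) / (M.X P - M.X Q)) ^ 2 - r - M.X P - M.X Q =
      ((M.η P + M.η Q) / (M.X P - M.X Q)) ^ 2 - (r + M.X P + M.X Q) := by ring
  rw [e, v.map_sub_eq_of_lt_left]
  · exact h1
  · refine lt_of_le_of_lt ?_ h1
    exact v.map_add_le (v.map_add_le hr hXP) hXQ

variable {M v}

/-- If the "slope" of the chord through `τ P` and `-P` is non-integral, then `τ P = P`. -/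
lemma fix_of_slope (A : Action M v) (hr : v r ≤ 1) (hs : v s ≤ 1) (h2 : v (2 : L) = 1)
    {p : ℕ} (hp : p.Prime) (hp5 : 5 ≤ p) (hpv : v (p : L) = 1)
    {P : G} (hP : P ≠ 0) (hpP : p • P = 0)
    (h : v (A.σ (M.X P) - M.X P) < v (A.σ (M.η P) + M.η P)) : A.τ P = P := by
  have hτP := A.τ_ne P hP
  have hX : v (M.X P) ≤ 1 := M.integral_of_torsion v hr hs h2 hp hp5 hpv hP hpP
  by_cases hXX : A.σ (M.X P) = M.X P
  · apply M.ext _ _ hτP hP
    · rw [A.X_τ P hP, hXX]
    · rw [A.η_τ P hP]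
      have e1 := M.eqn _ hτP
      have e2 := M.eqn P hP
      rw [A.X_τ P hP, A.η_τ P hP, hXX] at e1
      have e3 : (A.σ (M.η P) - M.η P) * (A.σ (M.η P) + M.η P) = 0 := by
        linear_combination e1 - e2
      have e4 : A.σ (M.η P) + M.η P ≠ 0 := by
        intro h0
        rw [h0, map_zero] at h
        exact absurd h (by simp)
      exact sub_eq_zero.mp ((mul_eq_zero.mp e3).resolve_right e4)
  · exfalso
    have hne : M.X (A.τ P) ≠ M.X P := by rw [A.X_τ P hP]; exact hXX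
    have hR : A.τ P - P ≠ 0 := by
      intro h0
      apply hne
      rw [sub_eq_zero.mp h0]
    have hpR : p • (A.τ P - P) = 0 := by
      rw [nsmul_sub, ← map_nsmul, hpP, map_zero, sub_zero]
    have h1 := M.integral_of_torsion v hr hs h2 hp hp5 hpv hR hpR
    have hX' : v (M.X (A.τ P)) ≤ 1 := by
      rw [A.X_τ P hP]
      have : A.σ (M.X P) = (A.σ (M.X P) - M.X P) + M.X P := by ring
      rw [this]
      exact v.map_add_le (A.inertia _ hX).le hX
    have h3 := M.one_lt_val_X_sub v hr hτP hP hne hX' hX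
      (by rw [A.X_τ P hP, A.η_τ P hP]; exact h)
    exact absurd h1 (not_le.mpr h3)

lemma val_η_le_one (hr : v r ≤ 1) (hs : v s ≤ 1) {P : G} (hP : P ≠ 0) (hX : v (M.X P) ≤ 1) :
    v (M.η P) ≤ 1 := by
  have e := M.eqn P hP
  have h1 : v (M.η P) ^ 2 ≤ 1 := by
    rw [← map_pow, e]
    have hX' : M.X P ∈ v.integer := hX
    have hr' : r ∈ v.integer := hr
    have hs' : s ∈ v.integer := hs
    have : M.X P ^ 3 + r * M.X P ^ 2 + s * M.X P ∈ v.integer := by
      apply_rules [add_mem, mul_mem, pow_mem]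
    exact this
  exact (pow_le_one_iff_of_nonneg zero_le two_ne_zero).mp h1

/-- The case of a point with nonsingular reduction. -/
lemma fix_of_nonsingular (A : Action M v) (hr : v r ≤ 1) (hs : v s ≤ 1) (h2 : v (2 : L) = 1)
    {p : ℕ} (hp : p.Prime) (hp5 : 5 ≤ p) (hpv : v (p : L) = 1)
    {P : G} (hP : P ≠ 0) (hpP : p • P = 0)
    (hns : v (M.η P) = 1 ∨ v (3 * M.X P ^ 2 + 2 * r * M.X P + s) = 1) : A.τ P = P := by
  have hτP := A.τ_ne P hP
  have hX : v (M.X P) ≤ 1 := M.integral_of_torsion v hr hs h2 hp hp5 hpv hP hpP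
  have hη : v (M.η P) ≤ 1 := val_η_le_one hr hs hP hX
  have hiX := A.inertia _ hX
  have hiη := A.inertia _ hη
  have h20 : (2 : L) ≠ 0 := by
    intro h; rw [h, map_zero] at h2; exact zero_ne_one h2
  apply fix_of_slope A hr hs h2 hp hp5 hpv hP hpP
  set X := M.X P with hXdef
  set η := M.η P with hηdef
  set X' := A.σ X with hX'def
  set η' := A.σ η with hη'def
  have e1 : η' ^ 2 = X' ^ 3 + r * X' ^ 2 + s * X' := by
    have := M.eqn _ hτP
    rwa [A.X_τ P hP, A.η_τ P hP] at this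
  have e2 : η ^ 2 = X ^ 3 + r * X ^ 2 + s * X := M.eqn P hP
  by_cases hη1 : v η = 1
  · have : η' + η = 2 * η + (η' - η) := by ring
    rw [this, v.map_add_eq_of_lt_left]
    · rw [map_mul, h2, hη1, one_mul]; exact hiX
    · rw [map_mul, h2, hη1, one_mul]; exact hiη
  · have hf' : v (3 * X ^ 2 + 2 * r * X + s) = 1 := hns.resolve_left hη1
    have hηlt : v η < 1 := lt_of_le_of_ne hη hη1
    have hX' : v X' ≤ 1 := by
      have : X' = (X' - X) + X := by ring
      rw [this]
      exact v.map_add_le hiX.le hX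
    by_cases hXX : X' = X
    · -- then `η' + η ≠ 0`, else `2 P` is a non-integral torsion point
      rw [hXX, sub_self, map_zero, zero_lt_iff, v.ne_zero_iff]
      intro h0
      have h2P : P + P ≠ 0 := by
        have := nsmul_ne_zero_of_prime hp hP hpP (k := 2) (by omega) (by omega)
        rwa [two_nsmul] at this
      have hη0 : η ≠ 0 := M.η_ne_zero_of_two_nsmul_ne hP h2P
      have hp2P : p • (P + P) = 0 := by rw [nsmul_add, hpP, add_zero]
      have h1 := M.integral_of_torsion v hr hs h2 hp hp5 hpv h2P hp2P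
      rw [M.dbl P hP hη0] at h1
      have hvη0 : v η ≠ 0 := (v.ne_zero_iff).mpr hη0
      have h3 : 1 < v (((3 * X ^ 2 + 2 * r * X + s) / (2 * η)) ^ 2) := by
        rw [map_pow, map_div₀, hf', map_mul, h2, one_mul]
        apply one_lt_pow₀ _ two_ne_zero
        rw [one_lt_div₀ (zero_lt_iff.mpr hvη0)]
        exact hηlt
      have e : ((3 * X ^ 2 + 2 * r * X + s) / (2 * η)) ^ 2 - r - 2 * X =
          ((3 * X ^ 2 + 2 * r * X + s) / (2 * η)) ^ 2 - (r + 2 * X) := by ring
      rw [e, v.map_sub_eq_of_lt_left] at h1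
      · exact absurd h1 (not_le.mpr h3)
      · refine lt_of_le_of_lt ?_ h3
        refine v.map_add_le hr ?_
        rw [map_mul, h2, one_mul]; exact hX
    · have hg : v (X' ^ 2 + X' * X + X ^ 2 + r * (X' + X) + s) = 1 := by
        have : X' ^ 2 + X' * X + X ^ 2 + r * (X' + X) + s =
            (3 * X ^ 2 + 2 * r * X + s) + (X' - X) * (X' + 2 * X + r) := by ring
        rw [this, v.map_add_eq_of_lt_left, hf']
        rw [hf', map_mul]
        have h3 : v (X' + 2 * X + r) ≤ 1 := by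
          refine v.map_add_le (v.map_add_le hX' ?_) hr
          rw [map_mul, h2, one_mul]; exact hX
        calc v (X' - X) * v (X' + 2 * X + r) ≤ v (X' - X) * 1 := by gcongr
          _ = v (X' - X) := mul_one _
          _ < 1 := hiX
      have e3 : (η' + η) * (η' - η) = (X' - X) * (X' ^ 2 + X' * X + X ^ 2 + r * (X' + X) + s) := by
        linear_combination e1 - e2
      have e4 := congrArg v e3
      rw [map_mul, map_mul, hg, mul_one] at e4
      have hd : v (X' - X) ≠ 0 := (v.ne_zero_iff).mpr (sub_ne_zero.mpr hXX)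
      have h5 : v (η' + η) ≠ 0 := by
        intro h0
        rw [h0, zero_mul] at e4
        exact hd e4.symm
      rw [← e4]
      calc v (η' + η) * v (η' - η) < v (η' + η) * 1 :=
            mul_lt_mul_of_pos_left hiη (zero_lt_iff.mpr h5)
        _ = v (η' + η) := mul_one _

/-- The case of a point reducing to the node whose `X`-coordinate is a unit times a fixed element. -/
lemma fix_of_node (A : Action M v) (hr : v r = 1) (hs : v s < 1) (h2 : v (2 : L) = 1)
    {p : ℕ} (hp : p.Prime) (hp5 : 5 ≤ p) (hpv : v (p : L) = 1)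
    {P : G} (hP : P ≠ 0) (hpP : p • P = 0) (hXs : v s < v (M.X P)) (hX1 : v (M.X P) < 1)
    {e : L} (he : A.σ e = e) (hev : v e = v (M.X P)) : A.τ P = P := by
  apply fix_of_slope A hr.le hs.le h2 hp hp5 hpv hP hpP
  set X := M.X P with hXdef
  set η := M.η P with hηdef
  have hvX0 : 0 < v X := lt_of_le_of_lt zero_le hXs
  have hX0 : X ≠ 0 := (v.ne_zero_iff).mp hvX0.ne'
  have he0 : e ≠ 0 := (v.ne_zero_iff).mp (by rw [hev]; exact hvX0.ne')
  have e2 : η ^ 2 = X ^ 3 + r * X ^ 2 + s * X := M.eqn P hP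
  -- the unit `w = X / e`
  set w := X / e with hw
  have hvw : v w = 1 := by rw [hw, map_div₀, hev, div_self hvX0.ne']
  have hXw : X = e * w := by rw [hw]; field_simp
  -- the unit `ρ = η / X`
  set ρ := η / X with hρ
  have hηρ : η = X * ρ := by rw [hρ]; field_simp
  have hρ2 : ρ ^ 2 = r + (X + s / X) := by
    rw [hρ, div_pow, e2]; field_simp; ring
  have hvρ : v ρ = 1 := by
    have h1 : v (X + s / X) < 1 := by
      refine lt_of_le_of_lt (v.map_add _ _) (max_lt hX1 ?_)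
      rw [map_div₀, div_lt_one₀ hvX0]
      exact hXs
    have h3 : v ρ ^ 2 = 1 := by
      rw [← map_pow, hρ2, v.map_add_eq_of_lt_left (by rw [hr]; exact h1), hr]
    exact (pow_eq_one_iff_of_nonneg zero_le two_ne_zero).mp h3
  have hiw := A.inertia w hvw.le
  have hiρ := A.inertia ρ hvρ.le
  have hσρ : v (A.σ ρ) ≤ 1 := by
    have : A.σ ρ = (A.σ ρ - ρ) + ρ := by ring
    rw [this]
    exact v.map_add_le hiρ.le hvρ.le
  have hσX : A.σ X - X = e * (A.σ w - w) := by
    rw [hXw, map_mul, he]; ring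
  have hlt : v (A.σ X - X) < v X := by
    rw [hσX, map_mul, hev]
    calc v X * v (A.σ w - w) < v X * 1 := mul_lt_mul_of_pos_left hiw hvX0
      _ = v X := mul_one _
  have hsum : A.σ η + η = 2 * X * ρ + ((A.σ X - X) * A.σ ρ + X * (A.σ ρ - ρ)) := by
    rw [hηρ, map_mul]; ring
  have hmain : v (2 * X * ρ) = v X := by rw [map_mul, map_mul, h2, hvρ, one_mul, mul_one]
  have hsmall : v ((A.σ X - X) * A.σ ρ + X * (A.σ ρ - ρ)) < v X := by
    refine lt_of_le_of_lt (v.map_add _ _) (max_lt ?_ ?_)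
    · rw [map_mul]
      calc v (A.σ X - X) * v (A.σ ρ) ≤ v (A.σ X - X) * 1 := by gcongr
        _ = v (A.σ X - X) := mul_one _
        _ < v X := hlt
    · rw [map_mul]
      calc v X * v (A.σ ρ - ρ) < v X * 1 := mul_lt_mul_of_pos_left hiρ hvX0
        _ = v X := mul_one _
  rw [hsum, v.map_add_eq_of_lt_left (by rw [hmain]; exact hsmall), hmain]
  exact hlt

/-- **Good reduction**: inertia acts trivially on the `p`-torsion. -/
theorem fix_of_good (A : Action M v) (hr : v r ≤ 1) (hs : v s = 1) (hdisc : v (r ^ 2 - 4 * s) = 1)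
    (h2 : v (2 : L) = 1) {p : ℕ} (hp : p.Prime) (hp5 : 5 ≤ p) (hpv : v (p : L) = 1)
    {P : G} (hpP : p • P = 0) : A.τ P = P := by
  by_cases hP : P = 0
  · rw [hP, map_zero]
  have hX : v (M.X P) ≤ 1 := M.integral_of_torsion v hr hs.le h2 hp hp5 hpv hP hpP
  have hη : v (M.η P) ≤ 1 := val_η_le_one hr hs.le hP hX
  apply fix_of_nonsingular A hr hs.le h2 hp hp5 hpv hP hpP
  by_contra hcon
  push Not at hcon
  obtain ⟨h1, h3⟩ := hcon
  have e2 := M.eqn P hP
  set X := M.X P
  set η := M.η P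
  have hX' : X ∈ v.integer := hX
  have hr' : r ∈ v.integer := hr
  have hs' : s ∈ v.integer := hs.le
  have hηlt : v η < 1 := lt_of_le_of_ne hη h1
  have hf'le : v (3 * X ^ 2 + 2 * r * X + s) ≤ 1 := by
    have : 3 * X ^ 2 + 2 * r * X + s ∈ v.integer := by
      apply_rules [add_mem, mul_mem, pow_mem, ofNat_mem]
    exact this
  have hf'lt : v (3 * X ^ 2 + 2 * r * X + s) < 1 := lt_of_le_of_ne hf'le h3
  have hflt : v (X ^ 3 + r * X ^ 2 + s * X) < 1 := by
    rw [← e2, map_pow]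
    exact pow_lt_one₀ zero_le hηlt two_ne_zero
  have hid : s ^ 2 * (r ^ 2 - 4 * s) =
      (-(6 * r ^ 2 - 18 * s) * X - 4 * r ^ 3 + 15 * r * s) * (X ^ 3 + r * X ^ 2 + s * X)
      + ((2 * r ^ 2 - 6 * s) * X ^ 2 + (2 * r ^ 3 - 7 * r * s) * X + s * (r ^ 2 - 4 * s))
        * (3 * X ^ 2 + 2 * r * X + s) := by ring
  have hA : v (-(6 * r ^ 2 - 18 * s) * X - 4 * r ^ 3 + 15 * r * s) ≤ 1 := by
    have : -(6 * r ^ 2 - 18 * s) * X - 4 * r ^ 3 + 15 * r * s ∈ v.integer := by
      apply_rules [add_mem, mul_mem, pow_mem, ofNat_mem, sub_mem, neg_mem]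
    exact this
  have hB : v ((2 * r ^ 2 - 6 * s) * X ^ 2 + (2 * r ^ 3 - 7 * r * s) * X + s * (r ^ 2 - 4 * s))
      ≤ 1 := by
    have : (2 * r ^ 2 - 6 * s) * X ^ 2 + (2 * r ^ 3 - 7 * r * s) * X + s * (r ^ 2 - 4 * s)
        ∈ v.integer := by
      apply_rules [add_mem, mul_mem, pow_mem, ofNat_mem, sub_mem, neg_mem]
    exact this
  have hlt : v (s ^ 2 * (r ^ 2 - 4 * s)) < 1 := by
    rw [hid]
    refine lt_of_le_of_lt (v.map_add _ _) (max_lt ?_ ?_)
    · rw [map_mul]
      exact mul_lt_one_of_nonneg_of_lt_one_right hA zero_le hflt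
    · rw [map_mul]
      exact mul_lt_one_of_nonneg_of_lt_one_right hB zero_le hf'lt
  rw [map_mul, map_pow, hs, hdisc, one_pow, one_mul] at hlt
  exact lt_irrefl _ hlt

/-- **Multiplicative reduction** with `p ∣ v(s)`: inertia acts trivially on the `p`-torsion. -/
theorem fix_of_mult (A : Action M v) (hr : v r = 1) (hs0 : s ≠ 0) (hs : v s < 1)
    (h2 : v (2 : L) = 1) {p : ℕ} (hp : p.Prime) (hp5 : 5 ≤ p) (hpv : v (p : L) = 1)
    {T : G} (hT : T ≠ 0) (hXT : M.X T = 0) {d : L} (hd : A.σ d = d) (hds : v s = v d ^ p)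
    {P : G} (hpP : p • P = 0) : A.τ P = P := by
  by_cases hP : P = 0
  · rw [hP, map_zero]
  have hX : v (M.X P) ≤ 1 := M.integral_of_torsion v hr.le hs.le h2 hp hp5 hpv hP hpP
  have hη : v (M.η P) ≤ 1 := val_η_le_one hr.le hs.le hP hX
  rcases lt_or_eq_of_le hX with hX1 | hX1
  · -- node
    obtain ⟨hXs, j, hj⟩ := M.node_torsion v hr hs0 hs h2 hp hp5 hT hXT hP hpP hX1
    have hd0 : d ≠ 0 := by
      intro h0
      rw [h0, map_zero, zero_pow hp.ne_zero] at hds
      exact hs0 ((v.zero_iff).mp hds)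
    have hvd0 : v d ≠ 0 := (v.ne_zero_iff).mpr hd0
    have hval : v (M.X P) = v (d ^ (2 * j)) := by
      have h1 : v (M.X P) ^ p = (v (d ^ (2 * j))) ^ p := by
        rw [hj, hds, map_zpow₀, ← pow_mul, ← zpow_natCast, ← zpow_natCast, ← zpow_mul, ← zpow_mul]
        congr 1
        push_cast
        ring
      exact (pow_left_inj₀ zero_le zero_le hp.ne_zero).mp h1
    exact fix_of_node A hr hs h2 hp hp5 hpv hP hpP hXs hX1 (e := d ^ (2 * j))
      (by rw [map_zpow₀, hd]) hval.symm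
  · -- nonsingular
    apply fix_of_nonsingular A hr.le hs.le h2 hp hp5 hpv hP hpP
    by_contra hcon
    push Not at hcon
    obtain ⟨h1, h3⟩ := hcon
    have e2 := M.eqn P hP
    set X := M.X P
    set η := M.η P
    have hX' : X ∈ v.integer := hX
    have hr' : r ∈ v.integer := hr.le
    have hs' : s ∈ v.integer := hs.le
    have hηlt : v η < 1 := lt_of_le_of_ne hη h1
    have hf'le : v (3 * X ^ 2 + 2 * r * X + s) ≤ 1 := by
      have : 3 * X ^ 2 + 2 * r * X + s ∈ v.integer := by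
        apply_rules [add_mem, mul_mem, pow_mem, ofNat_mem]
      exact this
    have hf'lt : v (3 * X ^ 2 + 2 * r * X + s) < 1 := lt_of_le_of_ne hf'le h3
    have hq : v (X ^ 2 + r * X + s) < 1 := by
      have h4 : v (X * (X ^ 2 + r * X + s)) < 1 := by
        rw [show X * (X ^ 2 + r * X + s) = X ^ 3 + r * X ^ 2 + s * X by ring, ← e2, map_pow]
        exact pow_lt_one₀ zero_le hηlt two_ne_zero
      rwa [map_mul, hX1, one_mul] at h4
    have h5 : v (X ^ 2 - s) < 1 := by
      have : X ^ 2 - s = (3 * X ^ 2 + 2 * r * X + s) - 2 * (X ^ 2 + r * X + s) := by ring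
      rw [this]
      refine lt_of_le_of_lt (v.map_sub _ _) (max_lt hf'lt ?_)
      rw [map_mul, h2, one_mul]
      exact hq
    have h6 : v (X ^ 2 - s) = 1 := by
      rw [v.map_sub_eq_of_lt_left (by rw [map_pow, hX1, one_pow]; exact hs), map_pow, hX1, one_pow]
    rw [h6] at h5
    exact lt_irrefl _ h5

end Model

end Fermat.Agent.S05
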