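import Fermat.Agent.S05.Model

/-!
# Torsion points of order prime to the residue characteristic are integral
-/

set_option autoImplicit false

namespace Fermat.Agent.S05

variable {G : Type*} [AddCommGroup G] {L : Type*} [Field L] {r s : L}
variable {Γ₀ : Type*} [LinearOrderedCommGroupWithZero Γ₀]

lemma nsmul_ne_zero_of_prime {p : ℕ} (hp : p.Prime) {P : G} (hP : P ≠ 0) (hpP : p • P = 0)
    {k : ℕ} (hk0 : 0 < k) (hkp : k < p) : k • P ≠ 0 := by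
  intro h
  haveI := Fact.mk hp
  have h1 : addOrderOf P = p := addOrderOf_eq_prime hpP hP
  have h2 : addOrderOf P ∣ k := addOrderOf_dvd_iff_nsmul_eq_zero.mpr h
  rw [h1] at h2
  exact absurd (Nat.le_of_dvd hk0 h2) (by omega)

lemma val_one_sub_eq_one (v : Valuation L Γ₀) {x : L} (hx : v x < 1) : v (1 - x) = 1 := by
  have := v.map_sub_eq_of_lt_left (x := 1) (y := x) (by rwa [map_one])
  rwa [map_one] at this

/-- The main estimate in the chart at infinity. -/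
lemma step_aux (v : Valuation L Γ₀) (hr : v r ≤ 1) (hs : v s ≤ 1) {ξ₁ ξ₂ : L} {c : Γ₀}
    (h1 : v ξ₁ ≤ c) (h2 : v ξ₂ ≤ c) (hc : c < 1) :
    v ((2 * (ξ₁ + ξ₂) * (1 + s * ξ₁ * ξ₂) + 4 * r * (ξ₁ * ξ₂)) / (1 - s * ξ₁ * ξ₂) ^ 2
      - 2 * (ξ₁ + ξ₂)) ≤ c ^ 2 := by
  have h1' : ξ₁ ∈ v.integer := (h1.trans hc.le)
  have h2' : ξ₂ ∈ v.integer := (h2.trans hc.le)
  have hr' : r ∈ v.integer := hr
  have hs' : s ∈ v.integer := hs
  have hsm : v (s * ξ₁ * ξ₂) < 1 := by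
    rw [map_mul, map_mul]
    calc v s * v ξ₁ * v ξ₂ ≤ 1 * 1 * c := by gcongr; exact h1.trans hc.le
      _ < 1 := by simpa using hc
  have hu : v (1 - s * ξ₁ * ξ₂) = 1 := val_one_sub_eq_one v hsm
  have hu0 : 1 - s * ξ₁ * ξ₂ ≠ 0 := by
    intro h; rw [h, map_zero] at hu; exact zero_ne_one hu
  have hE : (2 * (ξ₁ + ξ₂) * (1 + s * ξ₁ * ξ₂) + 4 * r * (ξ₁ * ξ₂)) / (1 - s * ξ₁ * ξ₂) ^ 2
      - 2 * (ξ₁ + ξ₂) =
      ξ₁ * ξ₂ * (4 * r + 2 * (ξ₁ + ξ₂) * (3 * s - s ^ 2 * ξ₁ * ξ₂)) / (1 - s * ξ₁ * ξ₂) ^ 2 := by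
    rw [eq_div_iff (pow_ne_zero 2 hu0), sub_mul, div_mul_cancel₀ _ (pow_ne_zero 2 hu0)]
    ring
  have hB : (4 * r + 2 * (ξ₁ + ξ₂) * (3 * s - s ^ 2 * ξ₁ * ξ₂)) ∈ v.integer := by
    apply_rules [add_mem, mul_mem, sub_mem, pow_mem, ofNat_mem]
  rw [hE, map_div₀, map_pow, hu, one_pow, div_one, map_mul, map_mul]
  calc v ξ₁ * v ξ₂ * v (4 * r + 2 * (ξ₁ + ξ₂) * (3 * s - s ^ 2 * ξ₁ * ξ₂)) ≤ c * c * 1 := by
        gcongr
        exact hB
    _ = c ^ 2 := by rw [mul_one, pow_two]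

/-- Passing from the `X`-form of the add-sub relations to the chart at infinity. -/
lemma inv_add_inv_of_rel {X₁ X₂ Xp Xm : L} (h1 : X₁ ≠ 0) (h2 : X₂ ≠ 0) (hne : X₁ ≠ X₂)
    (hN : 1 - s * X₁⁻¹ * X₂⁻¹ ≠ 0)
    (hsum : (Xp + Xm) * (X₁ - X₂) ^ 2 = 2 * (X₁ + X₂) * (X₁ * X₂ + s) + 4 * r * (X₁ * X₂))
    (hprod : Xp * Xm * (X₁ - X₂) ^ 2 = (X₁ * X₂ - s) ^ 2) :
    Xp ≠ 0 ∧ Xm ≠ 0 ∧ Xp⁻¹ + Xm⁻¹ =
      (2 * (X₁⁻¹ + X₂⁻¹) * (1 + s * X₁⁻¹ * X₂⁻¹) + 4 * r * (X₁⁻¹ * X₂⁻¹))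
        / (1 - s * X₁⁻¹ * X₂⁻¹) ^ 2 := by
  have hd : X₁ - X₂ ≠ 0 := sub_ne_zero.mpr hne
  have hN' : X₁ * X₂ - s ≠ 0 := by
    intro h
    apply hN
    field_simp
    linear_combination h
  have hpm : Xp * Xm ≠ 0 := by
    intro h
    rw [h, zero_mul] at hprod
    exact hN' (pow_eq_zero_iff (two_ne_zero) |>.mp hprod.symm)
  have hp0 : Xp ≠ 0 := left_ne_zero_of_mul hpm
  have hm0 : Xm ≠ 0 := right_ne_zero_of_mul hpm
  refine ⟨hp0, hm0, ?_⟩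
  have e1 : 1 - s * X₁⁻¹ * X₂⁻¹ = (X₁ * X₂ - s) / (X₁ * X₂) := by
    field_simp
  have e2 : Xp⁻¹ + Xm⁻¹ = ((Xp + Xm) * (X₁ - X₂) ^ 2) / (Xp * Xm * (X₁ - X₂) ^ 2) := by
    field_simp
    ring
  rw [e2, hsum, hprod, e1]
  field_simp
  ring

theorem Model.integral_of_torsion (M : Model G L r s) (v : Valuation L Γ₀)
    (hr : v r ≤ 1) (hs : v s ≤ 1) (h2 : v 2 = 1) {p : ℕ} (hp : p.Prime) (hp5 : 5 ≤ p)
    (hpv : v (p : L) = 1) {P : G} (hP : P ≠ 0) (hpP : p • P = 0) : v (M.X P) ≤ 1 := by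
  by_contra hX
  push Not at hX
  have hX0 : M.X P ≠ 0 := by
    intro h
    rw [h, map_zero] at hX
    exact absurd hX (by simp)
  set ξ := (M.X P)⁻¹ with hξ
  have hξ0 : ξ ≠ 0 := inv_ne_zero hX0
  have hvξ : v ξ < 1 := by
    rw [hξ, map_inv₀]
    exact inv_lt_one_of_one_lt₀ hX
  have hvξ0 : v ξ ≠ 0 := (v.ne_zero_iff).mpr hξ0
  have h20 : (2 : L) ≠ 0 := by
    intro h; rw [h, map_zero] at h2; exact zero_ne_one h2
  have h40 : (4 : L) ≠ 0 := by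
    have : (4 : L) = 2 * 2 := by norm_num
    rw [this]; exact mul_ne_zero h20 h20
  have hord : ∀ k, 0 < k → k < p → k • P ≠ 0 := fun k h1 h2 =>
    nsmul_ne_zero_of_prime hp hP hpP h1 h2
  have hnat : ∀ n : ℕ, v (n : L) ≤ 1 := fun n => by
    have : (n : L) ∈ v.integer := natCast_mem _ n
    exact this
  -- bound from the claim
  have hbound : ∀ (k : ℕ) (x : L), v (x - (k : L) ^ 2 * ξ) ≤ v ξ ^ 2 → v x ≤ v ξ := by
    intro k x hx
    have : x = (x - (k : L) ^ 2 * ξ) + (k : L) ^ 2 * ξ := by ring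
    rw [this]
    refine (v.map_add_le (hx.trans ?_) ?_)
    · rw [pow_two]
      calc v ξ * v ξ ≤ v ξ * 1 := by gcongr
        _ = v ξ := mul_one _
    · rw [map_mul, map_pow]
      calc v (k : L) ^ 2 * v ξ ≤ 1 ^ 2 * v ξ := by gcongr; exact hnat k
        _ = v ξ := by simp
  have hunit : ∀ x y : L, v x ≤ v ξ → v y ≤ v ξ → 1 - s * x * y ≠ 0 := by
    intro x y hx hy h
    have hsm : v (s * x * y) < 1 := by
      rw [map_mul, map_mul]
      calc v s * v x * v y ≤ 1 * 1 * v ξ := by gcongr; exact hx.trans hvξ.le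
        _ < 1 := by simpa using hvξ
    have := val_one_sub_eq_one v hsm
    rw [h, map_zero] at this
    exact zero_ne_one this
  -- the two base cases
  have C1 : M.X (1 • P) ≠ 0 ∧ v ((M.X (1 • P))⁻¹ - ((1 : ℕ) : L) ^ 2 * ξ) ≤ v ξ ^ 2 := by
    rw [one_nsmul]
    refine ⟨hX0, ?_⟩
    have : (M.X P)⁻¹ - ((1 : ℕ) : L) ^ 2 * ξ = 0 := by rw [hξ]; push_cast; ring
    rw [this, map_zero]
    exact zero_le
  have C2 : M.X (2 • P) ≠ 0 ∧ v ((M.X (2 • P))⁻¹ - ((2 : ℕ) : L) ^ 2 * ξ) ≤ v ξ ^ 2 := by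
    have h2P : P + P ≠ 0 := by
      have := hord 2 (by omega) (by omega)
      rwa [two_nsmul] at this
    have hη := M.η_ne_zero_of_two_nsmul_ne hP h2P
    have hd := M.dbl_mul hP hη h20
    have he := M.eqn P hP
    rw [two_nsmul]
    have hN := hunit ξ ξ le_rfl le_rfl
    have hN' : M.X P ^ 2 - s ≠ 0 := by
      intro h
      apply hN
      rw [hξ]
      field_simp
      linear_combination h
    have hX2 : M.X (P + P) ≠ 0 := by
      intro h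
      rw [h, zero_mul] at hd
      exact hN' (pow_eq_zero_iff (two_ne_zero) |>.mp hd.symm)
    refine ⟨hX2, ?_⟩
    have e : (M.X (P + P))⁻¹ = (2 * (ξ + ξ) * (1 + s * ξ * ξ) + 4 * r * (ξ * ξ))
        / (1 - s * ξ * ξ) ^ 2 := by
      have e1 : 1 - s * ξ * ξ = (M.X P ^ 2 - s) / (M.X P ^ 2) := by
        rw [hξ]; field_simp
      have e2 : (M.X (P + P))⁻¹ = (4 * M.η P ^ 2) / (M.X (P + P) * (4 * M.η P ^ 2)) := by
        field_simp
      rw [e2, hd, e1, he, hξ]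
      field_simp
      ring
    have := step_aux (r := r) (s := s) v hr hs (ξ₁ := ξ) (ξ₂ := ξ) le_rfl le_rfl hvξ
    rw [e]
    have e3 : ((2 : ℕ) : L) ^ 2 * ξ = 2 * (ξ + ξ) := by push_cast; ring
    rw [e3]
    exact this
  have claim : ∀ k, k + 2 ≤ p - 1 →
      (M.X ((k + 1) • P) ≠ 0 ∧ v ((M.X ((k + 1) • P))⁻¹ - ((k + 1 : ℕ) : L) ^ 2 * ξ) ≤ v ξ ^ 2) ∧
      (M.X ((k + 2) • P) ≠ 0 ∧ v ((M.X ((k + 2) • P))⁻¹ - ((k + 2 : ℕ) : L) ^ 2 * ξ) ≤ v ξ ^ 2) := by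
    intro k
    induction k with
    | zero => intro _; exact ⟨C1, C2⟩
    | succ k ih =>
      intro hk
      obtain ⟨⟨ha0, ha⟩, ⟨hb0, hb⟩⟩ := ih (by omega)
      refine ⟨⟨hb0, hb⟩, ?_⟩
      have hQ : (k + 2) • P ≠ 0 := hord _ (by omega) (by omega)
      have hadd : (k + 2) • P + P = (k + 1 + 2) • P := by
        rw [show k + 1 + 2 = (k + 2) + 1 by ring]; exact (succ_nsmul P (k + 2)).symm
      have hsub : (k + 2) • P - P = (k + 1) • P := by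
        rw [show k + 2 = (k + 1) + 1 by ring, succ_nsmul P (k + 1), add_sub_cancel_right]
      have hne : M.X ((k + 2) • P) ≠ M.X P := by
        apply M.X_ne hQ hP
        · rw [hadd]; exact hord _ (by omega) (by omega)
        · rw [hsub]; exact hord _ (by omega) (by omega)
      have hsum := M.add_sub_sum hQ hP hne
      have hprod := M.add_sub_prod hQ hP hne
      rw [hadd, hsub] at hsum hprod
      have hb' := hbound _ _ hb
      obtain ⟨hp0, -, hrel⟩ := inv_add_inv_of_rel hb0 hX0 hne (hunit _ _ hb' le_rfl) hsum hprod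
      refine ⟨hp0, ?_⟩
      have hst := step_aux (r := r) (s := s) v hr hs (ξ₁ := (M.X ((k + 2) • P))⁻¹) (ξ₂ := ξ)
        hb' le_rfl hvξ
      rw [← hrel] at hst
      have e : (M.X ((k + 1 + 2) • P))⁻¹ - ((k + 1 + 2 : ℕ) : L) ^ 2 * ξ =
          ((M.X ((k + 1 + 2) • P))⁻¹ + (M.X ((k + 1) • P))⁻¹
            - 2 * ((M.X ((k + 2) • P))⁻¹ + ξ))
          + (2 * ((M.X ((k + 2) • P))⁻¹ - ((k + 2 : ℕ) : L) ^ 2 * ξ)
          - ((M.X ((k + 1) • P))⁻¹ - ((k + 1 : ℕ) : L) ^ 2 * ξ)) := by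
        push_cast
        ring
      rw [e]
      refine v.map_add_le hst (v.map_sub_le ?_ ha)
      rw [map_mul, h2, one_mul]
      exact hb
  -- the end of the ladder
  obtain ⟨⟨-, hA⟩, ⟨-, hB⟩⟩ := claim (p - 3) (by omega)
  have e1 : (p - 3 + 2) • P = -P := by
    have : (p - 3 + 2) • P + P = 0 := by
      rw [← succ_nsmul, show p - 3 + 2 + 1 = p by omega, hpP]
    exact eq_neg_of_add_eq_zero_left this
  have e2 : (p - 3 + 1) • P = -(2 • P) := by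
    have : (p - 3 + 1) • P + 2 • P = 0 := by
      rw [← add_nsmul, show p - 3 + 1 + 2 = p by omega, hpP]
    exact eq_neg_of_add_eq_zero_left this
  rw [e1, M.X_neg] at hB
  rw [e2, M.X_neg] at hA
  have hC2 := C2.2
  -- `p (p - 2) ξ` and `p (p - 4) ξ` are small
  have hcast1 : ((p - 3 + 2 : ℕ) : L) = (p : L) - 1 := by
    rw [show p - 3 + 2 = p - 1 by omega, Nat.cast_sub (by omega)]; simp
  have hcast2 : ((p - 3 + 1 : ℕ) : L) = (p : L) - 2 := by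
    rw [show p - 3 + 1 = p - 2 by omega, Nat.cast_sub (by omega)]; simp
  rw [hcast1] at hB
  rw [hcast2] at hA
  have hB' : v ((p : L) * ((p : L) - 2) * ξ) ≤ v ξ ^ 2 := by
    have : (p : L) * ((p : L) - 2) * ξ = -((M.X P)⁻¹ - ((p : L) - 1) ^ 2 * ξ) := by
      rw [← hξ]; ring
    rw [this, Valuation.map_neg]
    exact hB
  have hA' : v ((p : L) * ((p : L) - 4) * ξ) ≤ v ξ ^ 2 := by
    have : (p : L) * ((p : L) - 4) * ξ = ((M.X (2 • P))⁻¹ - ((2 : ℕ) : L) ^ 2 * ξ)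
        - ((M.X (2 • P))⁻¹ - ((p : L) - 2) ^ 2 * ξ) := by
      push_cast; ring
    rw [this]
    exact v.map_sub_le hC2 hA
  rw [map_mul, map_mul, hpv, one_mul, pow_two] at hA' hB'
  have hA'' : v ((p : L) - 4) ≤ v ξ := le_of_mul_le_mul_right hA' (zero_lt_iff.mpr hvξ0)
  have hB'' : v ((p : L) - 2) ≤ v ξ := le_of_mul_le_mul_right hB' (zero_lt_iff.mpr hvξ0)
  have : v (2 : L) ≤ v ξ := by
    have e : (2 : L) = ((p : L) - 2) - ((p : L) - 4) := by ring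
    rw [e]
    exact v.map_sub_le hB'' hA''
  rw [h2] at this
  exact absurd this (not_le.mpr hvξ)

end Fermat.Agent.S05
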