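import Fermat.Agent.S05.NodeStep

/-!
# Torsion points reducing to the node
-/

set_option autoImplicit false

namespace Fermat.Agent.S05

section GroupLadder

variable {C : Type*} [CommGroup C]

/-- Equality up to inversion. -/
def Rel (u w : C) : Prop := u = w ∨ u = w⁻¹

lemma Rel.symm {u w : C} (h : Rel u w) : Rel w u := by
  rcases h with h | h
  · exact Or.inl h.symm
  · exact Or.inr (by rw [h, inv_inv])

lemma Rel.trans {u w x : C} (h1 : Rel u w) (h2 : Rel w x) : Rel u x := by
  rcases h1 with h1 | h1 <;> rcases h2 with h2 | h2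
  · exact Or.inl (h1.trans h2)
  · exact Or.inr (h1.trans h2)
  · exact Or.inr (by rw [h1, h2])
  · exact Or.inl (by rw [h1, h2, inv_inv])

lemma ladder_group (a : C) (x : ℕ → C) (p : ℕ) (hp5 : 5 ≤ p) (hodd : Odd p)
    (h1 : x 1 = a) (h2 : Rel (x 2) (a ^ 2))
    (hstep : ∀ k, k + 2 ≤ p - 2 → ∃ y z,
      ((x (k + 3) = y ∧ x (k + 1) = z) ∨ (x (k + 3) = z ∧ x (k + 1) = y)) ∧
      Rel y (x (k + 2) / a) ∧ Rel z (x (k + 2) * a))
    (hend1 : x (p - 1) = x 1) (hend2 : x (p - 2) = x 2) : a ^ p = 1 := by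
  have claim : ∀ k, k + 2 ≤ p - 1 → Rel (x (k + 1)) (a ^ (k + 1)) ∧ Rel (x (k + 2)) (a ^ (k + 2)) := by
    intro k
    induction k with
    | zero => intro _; exact ⟨Or.inl (by simpa using h1), h2⟩
    | succ k ih =>
      intro hk
      obtain ⟨ha, hb⟩ := ih (by omega)
      refine ⟨hb, ?_⟩
      obtain ⟨y, z, hyz, hy, hz⟩ := hstep k (by omega)
      have key : (Rel y (a ^ (k + 1)) ∧ Rel z (a ^ (k + 3))) ∨
          (Rel y (a ^ (k + 3)) ∧ Rel z (a ^ (k + 1))) := by
        rcases hb with hb | hb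
        · left
          rw [hb] at hy hz
          constructor
          · refine hy.trans (Or.inl ?_)
            rw [pow_succ a (k + 1), mul_div_cancel_right]
          · refine hz.trans (Or.inl ?_)
            rw [← pow_succ]
        · right
          rw [hb] at hy hz
          constructor
          · refine hy.trans (Or.inr ?_)
            rw [pow_succ a (k + 2), mul_inv, div_eq_mul_inv]
          · refine hz.trans (Or.inr ?_)
            rw [pow_succ a (k + 1), mul_inv, mul_assoc, inv_mul_cancel, mul_one]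
      show Rel (x (k + 3)) (a ^ (k + 3))
      rcases hyz with ⟨e1, e2⟩ | ⟨e1, e2⟩ <;> rcases key with ⟨k1, k2⟩ | ⟨k1, k2⟩
      · -- x (k+3) = y ~ a^(k+1), x (k+1) = z ~ a^(k+3)
        rw [e1]
        rw [e2] at ha
        exact k1.trans (ha.symm.trans k2)
      · rw [e1]; exact k1
      · rw [e1]; exact k2
      · rw [e1]
        rw [e2] at ha
        exact k2.trans (ha.symm.trans k1)
  obtain ⟨hA, hB⟩ := claim (p - 3) (by omega)
  rw [show p - 3 + 1 = p - 2 by omega, hend2] at hA
  rw [show p - 3 + 2 = p - 1 by omega, hend1, h1] at hB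
  rcases hB with hB | hB
  · -- a = a^(p-1), so a^(p-2) = 1
    have e1 : a ^ (p - 2) = 1 := by
      have : a ^ (p - 2) * a = 1 * a := by
        rw [← pow_succ, show p - 2 + 1 = p - 1 by omega, ← hB, one_mul]
      exact mul_right_cancel this
    rw [e1] at hA
    have e2 : x 2 = 1 := by
      rcases hA with h | h
      · exact h
      · rw [h, inv_one]
    rw [e2] at h2
    have e3 : a ^ 2 = 1 := by
      rcases h2 with h | h
      · exact h.symm
      · exact (inv_eq_one.mp h.symm)
    obtain ⟨m, hm⟩ := hodd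
    have e4 : a = 1 := by
      have : a ^ (p - 2) = (a ^ 2) ^ (m - 1) * a := by
        rw [← pow_mul, ← pow_succ]
        congr 1
        omega
      rw [e1, e3, one_pow, one_mul] at this
      exact this.symm
    rw [e4, one_pow]
  · have : a * a ^ (p - 1) = 1 := by
      nth_rewrite 1 [hB]
      exact inv_mul_cancel _
    rw [← pow_succ', show p - 1 + 1 = p by omega] at this
    exact this

end GroupLadder

section Cl

variable {Γ₀ : Type*} [LinearOrderedCommGroupWithZero Γ₀]

/-- The class of a nonzero element of the value group modulo powers of `t`. -/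
noncomputable def cl (t : Γ₀ˣ) (g : Γ₀) : Γ₀ˣ ⧸ Subgroup.zpowers t :=
  if h : g = 0 then 1 else QuotientGroup.mk (Units.mk0 g h)

lemma cl_mul (t : Γ₀ˣ) {g h : Γ₀} (hg : g ≠ 0) (hh : h ≠ 0) :
    cl t (g * h) = cl t g * cl t h := by
  unfold cl
  rw [dif_neg hg, dif_neg hh, dif_neg (mul_ne_zero hg hh), Units.mk0_mul]
  rfl

lemma cl_self (t : Γ₀ˣ) : cl t (t : Γ₀) = 1 := by
  unfold cl
  rw [dif_neg t.ne_zero, Units.mk0_val, QuotientGroup.eq_one_iff]
  exact Subgroup.mem_zpowers t

lemma cl_pow (t : Γ₀ˣ) {g : Γ₀} (hg : g ≠ 0) (n : ℕ) : cl t (g ^ n) = cl t g ^ n := by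
  induction n with
  | zero =>
    rw [pow_zero, pow_zero]
    unfold cl
    rw [dif_neg one_ne_zero, QuotientGroup.eq_one_iff]
    have : Units.mk0 (1 : Γ₀) one_ne_zero = 1 := by ext; rfl
    rw [this]
    exact one_mem _
  | succ n ih => rw [pow_succ, pow_succ, cl_mul t (pow_ne_zero n hg) hg, ih]

lemma exists_of_cl_eq_one (t : Γ₀ˣ) {g : Γ₀} (hg : g ≠ 0) (h : cl t g = 1) :
    ∃ j : ℤ, g = (t : Γ₀) ^ j := by
  unfold cl at h
  rw [dif_neg hg, QuotientGroup.eq_one_iff, Subgroup.mem_zpowers_iff] at h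
  obtain ⟨j, hj⟩ := h
  refine ⟨j, ?_⟩
  have := congrArg (fun u : Γ₀ˣ => (u : Γ₀)) hj
  simp only [Units.val_zpow_eq_zpow_val, Units.val_mk0] at this
  exact this.symm

end Cl

variable {G : Type*} [AddCommGroup G] {L : Type*} [Field L] {r s : L}
variable {Γ₀ : Type*} [LinearOrderedCommGroupWithZero Γ₀]

namespace Model

variable (M : Model G L r s) (v : Valuation L Γ₀)

/-- The points with nonsingular reduction (when `v s < 1`). -/
def E0 (Q : G) : Prop := Q = 0 ∨ 1 ≤ v (M.X Q)

lemma E0_add (hr : v r ≤ 1) (hs : v s < 1) (h2 : v (2 : L) = 1) {Q₁ Q₂ : G}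
    (h1 : M.E0 v Q₁) (h2' : M.E0 v Q₂) : M.E0 v (Q₁ + Q₂) := by
  have h20 : (2 : L) ≠ 0 := by
    intro h; rw [h, map_zero] at h2; exact zero_ne_one h2
  by_cases hQ1 : Q₁ = 0
  · rw [hQ1, zero_add]; exact h2'
  by_cases hQ2 : Q₂ = 0
  · rw [hQ2, add_zero]; exact h1
  by_cases hadd : Q₁ + Q₂ = 0
  · exact Or.inl hadd
  have hx1 : 1 ≤ v (M.X Q₁) := h1.resolve_left hQ1
  have hx2 : 1 ≤ v (M.X Q₂) := h2'.resolve_left hQ2
  right
  by_cases hsub : Q₁ - Q₂ = 0
  · -- doubling
    have hQ : Q₁ = Q₂ := sub_eq_zero.mp hsub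
    subst hQ
    have hη := M.η_ne_zero_of_two_nsmul_ne hQ1 hadd
    have hd := M.dbl_mul hQ1 hη h20
    have he := M.eqn Q₁ hQ1
    set x := v (M.X Q₁) with hx
    have hx0 : 0 < x := lt_of_lt_of_le zero_lt_one hx1
    have e1 : v (M.X Q₁ ^ 2 - s) = x ^ 2 := by
      rw [v.map_sub_eq_of_lt_left, map_pow]
      rw [map_pow]
      exact lt_of_lt_of_le hs (one_le_pow₀ hx1)
    have e2 : v (4 * M.η Q₁ ^ 2) ≤ x ^ 3 := by
      rw [map_mul, val_four v h2, one_mul, he]
      refine v.map_add_le (v.map_add_le ?_ ?_) ?_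
      · rw [map_pow]
      · rw [map_mul, map_pow]
        calc v r * x ^ 2 ≤ 1 * x ^ 2 := by gcongr
          _ = x ^ 2 := one_mul _
          _ ≤ x ^ 3 := pow_le_pow_right₀ hx1 (by norm_num)
      · rw [map_mul]
        calc v s * x ≤ 1 * x := by gcongr
          _ = x ^ 1 := by rw [one_mul, pow_one]
          _ ≤ x ^ 3 := pow_le_pow_right₀ hx1 (by norm_num)
    have e3 : v (M.X (Q₁ + Q₁)) * v (4 * M.η Q₁ ^ 2) = x ^ 4 := by
      have h := congrArg v hd
      rw [map_mul, map_pow, e1, ← pow_mul] at h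
      exact h
    by_contra hlt
    push Not at hlt
    have : x ^ 4 < x ^ 4 := by
      calc x ^ 4 = v (M.X (Q₁ + Q₁)) * v (4 * M.η Q₁ ^ 2) := e3.symm
        _ ≤ v (M.X (Q₁ + Q₁)) * x ^ 3 := by gcongr
        _ < 1 * x ^ 3 := mul_lt_mul_of_pos_right hlt (pow_pos hx0 3)
        _ = x ^ 3 := one_mul _
        _ ≤ x ^ 4 := pow_le_pow_right₀ hx1 (by norm_num)
    exact lt_irrefl _ this
  · -- generic case
    have hne := M.X_ne hQ1 hQ2 hadd hsub
    have hsum := M.add_sub_sum hQ1 hQ2 hne
    have hprod := M.add_sub_prod hQ1 hQ2 hne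
    set X₁ := M.X Q₁
    set X₂ := M.X Q₂
    set Xp := M.X (Q₁ + Q₂)
    set Xm := M.X (Q₁ - Q₂)
    set π := v X₁ * v X₂ with hπ
    have hπ1 : 1 ≤ π := one_le_mul_of_one_le_of_one_le hx1 hx2
    have hπ0 : 0 < π := lt_of_lt_of_le zero_lt_one hπ1
    have h1π : v X₁ ≤ π := by
      calc v X₁ = v X₁ * 1 := (mul_one _).symm
        _ ≤ π := by rw [hπ]; gcongr
    have h2π : v X₂ ≤ π := by
      calc v X₂ = 1 * v X₂ := (one_mul _).symm
        _ ≤ π := by rw [hπ]; gcongr
    have hππ : π ≤ π ^ 2 := by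
      calc π = π ^ 1 := (pow_one _).symm
        _ ≤ π ^ 2 := pow_le_pow_right₀ hπ1 (by norm_num)
    have hN : v (X₁ * X₂ - s) = π := by
      rw [v.map_sub_eq_of_lt_left, map_mul]
      rw [map_mul]
      exact lt_of_lt_of_le hs hπ1
    have hS : v (2 * (X₁ + X₂) * (X₁ * X₂ + s) + 4 * r * (X₁ * X₂)) ≤ π ^ 2 := by
      refine v.map_add_le ?_ ?_
      · rw [map_mul, map_mul, h2, one_mul, pow_two]
        gcongr
        · exact v.map_add_le h1π h2π
        · refine v.map_add_le ?_ (hs.le.trans hπ1)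
          rw [map_mul]
      · rw [map_mul, map_mul, map_mul, val_four v h2, one_mul]
        calc v r * (v X₁ * v X₂) ≤ 1 * π := by gcongr
          _ = π := one_mul _
          _ ≤ π ^ 2 := hππ
    set δ := v (X₁ - X₂) ^ 2 with hδ
    have hδ0 : 0 < δ := by
      apply pow_pos
      exact zero_lt_iff.mpr ((v.ne_zero_iff).mpr (sub_ne_zero.mpr hne))
    have hδπ : δ ≤ π ^ 2 := by
      rw [hδ]
      gcongr
      exact v.map_sub_le h1π h2π
    have hprodv : v Xp * v Xm * δ = π ^ 2 := by
      have h := congrArg v hprod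
      rw [map_mul, map_mul, map_pow, map_pow, hN] at h
      exact h
    have hsumv : v (Xp + Xm) * δ ≤ π ^ 2 := by
      have h := congrArg v hsum
      rw [map_mul, map_pow] at h
      rw [hδ, h]
      exact hS
    by_contra hlt
    push Not at hlt
    have h3 : 1 ≤ v Xp * v Xm := by
      have : 1 * δ ≤ v Xp * v Xm * δ := by rw [one_mul, hprodv]; exact hδπ
      exact le_of_mul_le_mul_right this hδ0
    have h4 : 1 < v Xm := by
      by_contra h
      push Not at h
      have : v Xp * v Xm < 1 := by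
        calc v Xp * v Xm ≤ v Xp * 1 := by gcongr
          _ = v Xp := mul_one _
          _ < 1 := hlt
      exact absurd h3 (not_le.mpr this)
    have h5 : v (Xp + Xm) = v Xm := v.map_add_eq_of_lt_right (hlt.trans h4)
    rw [h5] at hsumv
    have h6 : 0 < v Xm * δ := mul_pos (zero_lt_one.trans h4) hδ0
    have : v Xm * δ < v Xm * δ := by
      calc v Xm * δ ≤ π ^ 2 := hsumv
        _ = v Xp * (v Xm * δ) := by rw [← hprodv, mul_assoc]
        _ < 1 * (v Xm * δ) := mul_lt_mul_of_pos_right hlt h6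
        _ = v Xm * δ := one_mul _
    exact lt_irrefl _ this

lemma E0_nsmul (hr : v r ≤ 1) (hs : v s < 1) (h2 : v (2 : L) = 1) {Q : G}
    (h : M.E0 v Q) (n : ℕ) : M.E0 v (n • Q) := by
  induction n with
  | zero => left; exact zero_nsmul Q
  | succ n ih => rw [succ_nsmul]; exact M.E0_add v hr hs h2 ih h

lemma η_eq_zero_of_X_eq_zero {T : G} (hT : T ≠ 0) (hXT : M.X T = 0) : M.η T = 0 := by
  have := M.eqn T hT
  rw [hXT] at this
  simpa using this

lemma X_add_T {T : G} (hT : T ≠ 0) (hXT : M.X T = 0) {Q : G} (hQ : Q ≠ 0) (hXQ : M.X Q ≠ 0) :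
    M.X (Q + T) * M.X Q = s := by
  have hηT := M.η_eq_zero_of_X_eq_zero hT hXT
  have he := M.eqn Q hQ
  rw [M.add Q T hQ hT (by rw [hXT]; exact hXQ), hXT, hηT]
  field_simp
  linear_combination (M.X Q) * he

lemma T_add_T {T : G} (hT : T ≠ 0) (hXT : M.X T = 0) : T + T = 0 := by
  have hηT := M.η_eq_zero_of_X_eq_zero hT hXT
  have : T = -T := M.ext T (-T) hT (neg_ne_zero.mpr hT) (M.X_neg T).symm
    (by rw [M.η_neg, hηT, neg_zero])
  calc T + T = T + -T := by rw [← this]
    _ = 0 := add_neg_cancel T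

/-- A `p`-torsion point reducing to the node lies strictly between the identity component and
the component of the two-torsion point `T`; the valuation of its `X`-coordinate is a `p`-division
point of the circle `Γ / (v s ^ 2)^ℤ`. -/
theorem node_torsion (hr : v r = 1) (hs0 : s ≠ 0) (hs : v s < 1) (h2 : v (2 : L) = 1)
    {p : ℕ} (hp : p.Prime) (hp5 : 5 ≤ p) {T : G} (hT : T ≠ 0) (hXT : M.X T = 0)
    {P : G} (hP : P ≠ 0) (hpP : p • P = 0) (hX : v (M.X P) < 1) :
    v s < v (M.X P) ∧ ∃ j : ℤ, v (M.X P) ^ p = (v s ^ 2) ^ j := by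
  have h20 : (2 : L) ≠ 0 := by
    intro h; rw [h, map_zero] at h2; exact zero_ne_one h2
  have hodd : Odd p := hp.odd_of_ne_two (by omega)
  have hord : ∀ k, 0 < k → k < p → k • P ≠ 0 := fun k h1 h2 =>
    nsmul_ne_zero_of_prime hp hP hpP h1 h2
  have hTT := M.T_add_T hT hXT
  have hpT : p • T = T := by
    obtain ⟨m, hm⟩ := hodd
    rw [hm, add_nsmul, one_nsmul, mul_nsmul', two_nsmul, ← nsmul_add, hTT, nsmul_zero, zero_add]
  have hnotE0P : ¬ M.E0 v P := by
    rintro (h | h)
    · exact hP h
    · exact absurd h (not_le.mpr hX)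
  have hnotE0T : ¬ M.E0 v T := by
    rintro (h | h)
    · exact hT h
    · rw [hXT, map_zero] at h
      exact absurd h (by simp)
  have hbd : ∀ k, 0 < k → k < p → v s < v (M.X (k • P)) ∧ v (M.X (k • P)) < 1 := by
    intro k hk0 hkp
    have hQ := hord k hk0 hkp
    have hpQ : p • (k • P) = 0 := by rw [smul_comm, hpP, nsmul_zero]
    constructor
    · by_contra hle
      push Not at hle
      have hXQ : M.X (k • P) ≠ 0 := by
        intro h0
        have : k • P = T ∨ k • P = -T := M.eq_or_eq_neg hQ hT (by rw [h0, hXT])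
        have hQT : k • P = T := by
          rcases this with h | h
          · exact h
          · rw [h]; exact (eq_neg_of_add_eq_zero_left hTT).symm
        rw [hQT, hpT] at hpQ
        exact hT hpQ
      have hrel := M.X_add_T hT hXT hQ hXQ
      have hE : M.E0 v (k • P + T) := by
        right
        have h := congrArg v hrel
        rw [map_mul] at h
        have hpos : 0 < v (M.X (k • P)) := zero_lt_iff.mpr ((v.ne_zero_iff).mpr hXQ)
        have : 1 * v (M.X (k • P)) ≤ v (M.X (k • P + T)) * v (M.X (k • P)) := by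
          rw [one_mul, h]; exact hle
        exact le_of_mul_le_mul_right this hpos
      have := M.E0_nsmul v hr.le hs h2 hE p
      rw [nsmul_add, hpQ, zero_add, hpT] at this
      exact hnotE0T this
    · by_contra hle
      push Not at hle
      have hE : M.E0 v (k • P) := Or.inr hle
      obtain ⟨m, -, hm⟩ := Nat.exists_mul_mod_eq_one_of_coprime
        (k := p) (n := k) ((Nat.coprime_comm.mp ((Nat.Prime.coprime_iff_not_dvd hp).mpr
          (fun h => absurd (Nat.le_of_dvd hk0 h) (by omega))))) hp.one_lt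
      have := M.E0_nsmul v hr.le hs h2 hE m
      have e : m • (k • P) = P := by
        have hp' := Fact.mk hp
        have h1 : addOrderOf P = p := addOrderOf_eq_prime hpP hP
        rw [← mul_nsmul', mul_comm, ← mod_addOrderOf_nsmul, h1, hm, one_nsmul]
      rw [e] at this
      exact hnotE0P this
  have hb1 := hbd 1 (by omega) (by omega)
  rw [one_nsmul] at hb1
  refine ⟨hb1.1, ?_⟩
  -- the ladder
  have hvs0 : v s ≠ 0 := (v.ne_zero_iff).mpr hs0
  set t : Γ₀ˣ := Units.mk0 (v s ^ 2) (pow_ne_zero 2 hvs0) with ht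
  have htval : (t : Γ₀) = v s ^ 2 := rfl
  have hne0 : ∀ k, 0 < k → k < p → v (M.X (k • P)) ≠ 0 := fun k h1 h2 =>
    (lt_of_le_of_lt zero_le (hbd k h1 h2).1).ne'
  have ha0 : v (M.X P) ≠ 0 := (lt_of_le_of_lt zero_le hb1.1).ne'
  have key : cl t (v (M.X P)) ^ p = 1 := by
    apply ladder_group (cl t (v (M.X P))) (fun k => cl t (v (M.X (k • P)))) p hp5 hodd
    · simp only [one_nsmul]
    · -- doubling
      have h2P : P + P ≠ 0 := by
        have := hord 2 (by omega) (by omega)
        rwa [two_nsmul] at this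
      have hη := M.η_ne_zero_of_two_nsmul_ne hP h2P
      have hd := M.dbl_mul hP hη h20
      have hb2 := hbd 2 (by omega) (by omega)
      have hn2 := hne0 2 (by omega) (by omega)
      rw [two_nsmul] at hb2 hn2 ⊢
      rcases node_dbl v hr h2 hb1.1 hb1.2 hb2.1 (M.eqn P hP) hd with h | h
      · left
        rw [h, cl_pow t ha0]
      · right
        have := congrArg (cl t) h
        rw [cl_mul t hn2 (pow_ne_zero 2 ha0), cl_pow t ha0, ← htval, cl_self] at this
        exact eq_inv_of_mul_eq_one_left this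
    · intro k hk
      have hQ : (k + 2) • P ≠ 0 := hord _ (by omega) (by omega)
      have hadd : (k + 2) • P + P = (k + 3) • P := (succ_nsmul P (k + 2)).symm
      have hsub : (k + 2) • P - P = (k + 1) • P := by
        rw [show k + 2 = (k + 1) + 1 by ring, succ_nsmul P (k + 1), add_sub_cancel_right]
      have hne : M.X ((k + 2) • P) ≠ M.X P := by
        apply M.X_ne hQ hP
        · rw [hadd]; exact hord _ (by omega) (by omega)
        · rw [hsub]; exact hord _ (by omega) (by omega)
      have hsum := M.add_sub_sum hQ hP hne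
      have hprod := M.add_sub_prod hQ hP hne
      rw [hadd, hsub] at hsum hprod
      have b1 := hbd (k + 1) (by omega) (by omega)
      have b2 := hbd (k + 2) (by omega) (by omega)
      have b3 := hbd (k + 3) (by omega) (by omega)
      have n2 := hne0 (k + 2) (by omega) (by omega)
      obtain ⟨y, z, hyz, hy, hz⟩ := node_step v hr h2 b2.1 b2.2 hb1.1 hb1.2 b3.1 b3.2 b1.1 b1.2
        hsum hprod
      have hy0 : y ≠ 0 := by
        rcases hyz with ⟨e, -⟩ | ⟨-, e⟩
        · rw [← e]; exact hne0 _ (by omega) (by omega)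
        · rw [← e]; exact hne0 _ (by omega) (by omega)
      have hz0 : z ≠ 0 := by
        rcases hyz with ⟨-, e⟩ | ⟨e, -⟩
        · rw [← e]; exact hne0 _ (by omega) (by omega)
        · rw [← e]; exact hne0 _ (by omega) (by omega)
      refine ⟨cl t y, cl t z, ?_, ?_, ?_⟩
      · rcases hyz with ⟨e1, e2⟩ | ⟨e1, e2⟩
        · left; simp only [e1, e2, and_self]
        · right; simp only [e1, e2, and_self]
      · rcases hy with h | h
        · right
          have := congrArg (cl t) h
          rw [cl_mul t hy0 n2] at this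
          rw [inv_div, eq_div_iff_mul_eq']
          exact this
        · left
          have := congrArg (cl t) h
          rw [cl_mul t hy0 ha0] at this
          rw [eq_div_iff_mul_eq']
          exact this
      · rcases hz with h | h
        · left
          rw [h, cl_mul t n2 ha0]
        · right
          have := congrArg (cl t) h
          rw [cl_mul t hz0 (mul_ne_zero n2 ha0), cl_mul t n2 ha0, ← htval, cl_self] at this
          exact eq_inv_of_mul_eq_one_left this
    · simp only [one_nsmul]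
      have : (p - 1) • P = -P := by
        have : (p - 1) • P + P = 0 := by
          rw [← succ_nsmul, show p - 1 + 1 = p by omega, hpP]
        exact eq_neg_of_add_eq_zero_left this
      rw [this, M.X_neg]
    · have : (p - 2) • P = -(2 • P) := by
        have : (p - 2) • P + 2 • P = 0 := by
          rw [← add_nsmul, show p - 2 + 2 = p by omega, hpP]
        exact eq_neg_of_add_eq_zero_left this
      rw [this, M.X_neg]
  rw [← cl_pow t ha0] at key
  obtain ⟨j, hj⟩ := exists_of_cl_eq_one t (pow_ne_zero p ha0) key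
  exact ⟨j, hj⟩

end Model

end Fermat.Agent.S05
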