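import Mathlib

/-!
# Abstract model `η² = X³ + r X² + s X` of the group of points of an elliptic curve

We only record the `X`-coordinate of sums; this is enough for "x-only" ladders.
-/

set_option autoImplicit false

namespace Fermat.Agent.S05

/-- A group `G` whose nonzero elements are points `(X, η)` on `η² = X³ + r X² + s X`,
with the chord and tangent formulas for the `X`-coordinate. -/
structure Model (G : Type*) [AddCommGroup G] (L : Type*) [Field L] (r s : L) where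
  X : G → L
  η : G → L
  eqn : ∀ P, P ≠ 0 → η P ^ 2 = X P ^ 3 + r * X P ^ 2 + s * X P
  X_neg : ∀ P, X (-P) = X P
  η_neg : ∀ P, η (-P) = - η P
  ext : ∀ P Q, P ≠ 0 → Q ≠ 0 → X P = X Q → η P = η Q → P = Q
  add : ∀ P Q, P ≠ 0 → Q ≠ 0 → X P ≠ X Q →
    X (P + Q) = ((η P - η Q) / (X P - X Q)) ^ 2 - r - X P - X Q
  dbl : ∀ P, P ≠ 0 → η P ≠ 0 →
    X (P + P) = ((3 * X P ^ 2 + 2 * r * X P + s) / (2 * η P)) ^ 2 - r - 2 * X P

namespace Model

variable {G : Type*} [AddCommGroup G] {L : Type*} [Field L] {r s : L} (M : Model G L r s)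

include M in
lemma eq_or_eq_neg {P Q : G} (hP : P ≠ 0) (hQ : Q ≠ 0) (h : M.X P = M.X Q) :
    P = Q ∨ P = -Q := by
  have h1 := M.eqn P hP
  have h2 := M.eqn Q hQ
  rw [h] at h1
  have h3 : (M.η P - M.η Q) * (M.η P + M.η Q) = 0 := by linear_combination h1 - h2
  rcases mul_eq_zero.mp h3 with h4 | h4
  · left
    exact M.ext P Q hP hQ h (sub_eq_zero.mp h4)
  · right
    refine M.ext P (-Q) hP (neg_ne_zero.mpr hQ) (by rw [M.X_neg, h]) ?_
    rw [M.η_neg]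
    linear_combination h4

lemma X_ne {P Q : G} (hP : P ≠ 0) (hQ : Q ≠ 0) (h1 : P + Q ≠ 0) (h2 : P - Q ≠ 0) :
    M.X P ≠ M.X Q := by
  intro h
  rcases M.eq_or_eq_neg hP hQ h with h3 | h3
  · exact h2 (by rw [h3, sub_self])
  · exact h1 (by rw [h3, neg_add_cancel])

lemma sub {P Q : G} (hP : P ≠ 0) (hQ : Q ≠ 0) (h : M.X P ≠ M.X Q) :
    M.X (P - Q) = ((M.η P + M.η Q) / (M.X P - M.X Q)) ^ 2 - r - M.X P - M.X Q := by
  have := M.add P (-Q) hP (neg_ne_zero.mpr hQ) (by rwa [M.X_neg])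
  rw [M.X_neg, M.η_neg] at this
  rw [sub_eq_add_neg, this, sub_neg_eq_add]

lemma add_sub_sum {P Q : G} (hP : P ≠ 0) (hQ : Q ≠ 0) (h : M.X P ≠ M.X Q) :
    (M.X (P + Q) + M.X (P - Q)) * (M.X P - M.X Q) ^ 2 =
      2 * (M.X P + M.X Q) * (M.X P * M.X Q + s) + 4 * r * (M.X P * M.X Q) := by
  have h1 := M.eqn P hP
  have h2 := M.eqn Q hQ
  have hd : M.X P - M.X Q ≠ 0 := sub_ne_zero.mpr h
  rw [M.add P Q hP hQ h, M.sub hP hQ h]
  field_simp
  linear_combination 2 * h1 + 2 * h2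

lemma add_sub_prod {P Q : G} (hP : P ≠ 0) (hQ : Q ≠ 0) (h : M.X P ≠ M.X Q) :
    M.X (P + Q) * M.X (P - Q) * (M.X P - M.X Q) ^ 2 = (M.X P * M.X Q - s) ^ 2 := by
  have h1 := M.eqn P hP
  have h2 := M.eqn Q hQ
  have hd : M.X P - M.X Q ≠ 0 := sub_ne_zero.mpr h
  have key : M.X (P + Q) * M.X (P - Q) * (M.X P - M.X Q) ^ 4 =
      (M.η P ^ 2 - M.η Q ^ 2) ^ 2
        - 2 * (r + M.X P + M.X Q) * (M.X P - M.X Q) ^ 2 * (M.η P ^ 2 + M.η Q ^ 2)
        + (r + M.X P + M.X Q) ^ 2 * (M.X P - M.X Q) ^ 4 := by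
    rw [M.add P Q hP hQ h, M.sub hP hQ h]
    field_simp
    ring
  rw [h1, h2] at key
  have hd2 : (M.X P - M.X Q) ^ 2 ≠ 0 := pow_ne_zero 2 hd
  apply mul_right_cancel₀ hd2
  linear_combination key

lemma dbl_mul {P : G} (hP : P ≠ 0) (hη : M.η P ≠ 0) (h2 : (2 : L) ≠ 0) :
    M.X (P + P) * (4 * M.η P ^ 2) = (M.X P ^ 2 - s) ^ 2 := by
  have h1 := M.eqn P hP
  rw [M.dbl P hP hη]
  field_simp
  linear_combination (-16 * r - 32 * M.X P) * h1

lemma η_ne_zero_of_two_nsmul_ne {P : G} (hP : P ≠ 0) (h : P + P ≠ 0) : M.η P ≠ 0 := by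
  intro h0
  apply h
  have : P = -P := M.ext P (-P) hP (neg_ne_zero.mpr hP) (M.X_neg P).symm (by rw [M.η_neg, h0, neg_zero])
  calc P + P = P + -P := by rw [← this]
    _ = 0 := add_neg_cancel P

end Model

end Fermat.Agent.S05
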