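import Fermat.Agent.S05.K1

/-!
# Valuation estimates near the node
-/

set_option autoImplicit false

namespace Fermat.Agent.S05

variable {L : Type*} [Field L] {r s : L}
variable {Γ₀ : Type*} [LinearOrderedCommGroupWithZero Γ₀]

lemma val_four (v : Valuation L Γ₀) (h2 : v (2 : L) = 1) : v (4 : L) = 1 := by
  have : (4 : L) = 2 * 2 := by norm_num
  rw [this, map_mul, h2, one_mul]

lemma node_step_aux (v : Valuation L Γ₀) (hr : v r = 1) (h2 : v (2 : L) = 1) {X₁ X₂ Xp Xm : L}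
    (h11 : v X₁ < 1) (h2s : v s < v X₂)
    (hps : v s < v Xp) (hp1 : v Xp < 1) (hms : v s < v Xm) (hm1 : v Xm < 1)
    (hle : v X₂ ≤ v X₁)
    (hsum : (Xp + Xm) * (X₁ - X₂) ^ 2 = 2 * (X₁ + X₂) * (X₁ * X₂ + s) + 4 * r * (X₁ * X₂))
    (hprod : Xp * Xm * (X₁ - X₂) ^ 2 = (X₁ * X₂ - s) ^ 2) :
    ∃ y z, ((v Xp = y ∧ v Xm = z) ∨ (v Xp = z ∧ v Xm = y)) ∧ (y * v X₁ = v X₂) ∧
      (z = v X₁ * v X₂ ∨ z * (v X₁ * v X₂) = v s ^ 2) := by
  set a := v X₂ with ha
  set b := v X₁ with hb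
  have ha0 : 0 < a := lt_of_le_of_lt zero_le h2s
  have hb0 : 0 < b := lt_of_lt_of_le ha0 hle
  have hba_lt : b * a < a := by
    calc b * a < 1 * a := mul_lt_mul_of_pos_right h11 ha0
      _ = a := one_mul a
  have hQ : v (X₁ * X₂ + s) < a := by
    refine lt_of_le_of_lt (v.map_add _ _) (max_lt ?_ h2s)
    rw [map_mul]
    exact hba_lt
  have hn : v (X₁ * X₂ - s) < a := by
    refine lt_of_le_of_lt (v.map_sub _ _) (max_lt ?_ h2s)
    rw [map_mul]
    exact hba_lt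
  have hS1 : v (2 * (X₁ + X₂) * (X₁ * X₂ + s)) < b * a := by
    rw [map_mul, map_mul, h2, one_mul]
    calc v (X₁ + X₂) * v (X₁ * X₂ + s) ≤ b * v (X₁ * X₂ + s) := by
          gcongr
          exact v.map_add_le le_rfl hle
      _ < b * a := mul_lt_mul_of_pos_left hQ hb0
  have hS2 : v (4 * r * (X₁ * X₂)) = b * a := by
    rw [map_mul, map_mul, map_mul, val_four v h2, hr, one_mul, one_mul]
  have hS : v (2 * (X₁ + X₂) * (X₁ * X₂ + s) + 4 * r * (X₁ * X₂)) = b * a := by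
    rw [v.map_add_eq_of_lt_right (by rw [hS2]; exact hS1)]
    exact hS2
  have hsumv : v (Xp + Xm) * v (X₁ - X₂) ^ 2 = b * a := by
    rw [← hS, ← hsum, map_mul, map_pow]
  have hpm1 : v (Xp + Xm) < 1 := lt_of_le_of_lt (v.map_add _ _) (max_lt hp1 hm1)
  have hlt : a < b := by
    rcases lt_or_eq_of_le hle with h | h
    · exact h
    · exfalso
      have hD : v (X₁ - X₂) ≤ b := v.map_sub_le le_rfl hle
      have : b * a < b * a := by
        calc b * a = v (Xp + Xm) * v (X₁ - X₂) ^ 2 := hsumv.symm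
          _ ≤ v (Xp + Xm) * b ^ 2 := by gcongr
          _ < 1 * b ^ 2 := mul_lt_mul_of_pos_right hpm1 (pow_pos hb0 2)
          _ = b * a := by rw [one_mul, pow_two, h]
      exact lt_irrefl _ this
  have hD : v (X₁ - X₂) = b := v.map_sub_eq_of_lt_left hlt
  rw [hD] at hsumv
  have hy : v (Xp + Xm) * b = a := by
    have : (v (Xp + Xm) * b) * b = a * b := by rw [mul_assoc, ← pow_two, hsumv, mul_comm]
    exact mul_right_cancel₀ hb0.ne' this
  have hprodv : v Xp * v Xm * b ^ 2 = v (X₁ * X₂ - s) ^ 2 := by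
    have h := congrArg v hprod
    rw [map_mul, map_mul, map_pow, map_pow, hD] at h
    exact h
  have main : ∀ A B : L, v (A + B) * b = a → v A * v B * b ^ 2 = v (X₁ * X₂ - s) ^ 2 →
      v B < v A → v s < v B → (v A * b = a ∧ (v B = b * a ∨ v B * (b * a) = v s ^ 2)) := by
    intro A B h1 h2' hlt' hsB
    have hA : v (A + B) = v A := v.map_add_eq_of_lt_left hlt'
    rw [hA] at h1
    refine ⟨h1, ?_⟩
    have hz : v B * (b * a) = v (X₁ * X₂ - s) ^ 2 := by
      rw [← h2', ← h1, pow_two]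
      ac_rfl
    rcases lt_trichotomy (b * a) (v s) with h | h | h
    · right
      have : v (X₁ * X₂ - s) = v s := by
        apply v.map_sub_eq_of_lt_right
        rw [map_mul]; exact h
      rw [hz, this]
    · exfalso
      have hle' : v (X₁ * X₂ - s) ≤ v s := by
        apply v.map_sub_le _ le_rfl
        rw [map_mul]; exact h.le
      have h3 : v B * (b * a) ≤ v s * (b * a) := by
        rw [hz, pow_two]
        calc v (X₁ * X₂ - s) * v (X₁ * X₂ - s) ≤ v s * v s := by gcongr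
          _ = v s * (b * a) := by rw [h]
      have h4 : v B ≤ v s := le_of_mul_le_mul_right h3 (mul_pos hb0 ha0)
      exact absurd h4 (not_le.mpr hsB)
    · left
      have : v (X₁ * X₂ - s) = b * a := by
        rw [v.map_sub_eq_of_lt_left (by rw [map_mul]; exact h), map_mul]
      rw [this, pow_two] at hz
      exact mul_right_cancel₀ (mul_pos hb0 ha0).ne' hz
  rcases lt_trichotomy (v Xp) (v Xm) with h | h | h
  · obtain ⟨h1, h3⟩ := main Xm Xp (by rw [add_comm]; exact hy)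
      (by rw [mul_comm (v Xm)]; exact hprodv) h hps
    exact ⟨v Xm, v Xp, Or.inr ⟨rfl, rfl⟩, h1, h3⟩
  · exfalso
    have h1 : v (Xp + Xm) ≤ v Xp := v.map_add_le le_rfl h.ge
    have h3 : a ≤ v Xp * b := by
      rw [← hy]
      gcongr
    have h4 : a ^ 2 ≤ v (X₁ * X₂ - s) ^ 2 := by
      rw [← hprodv, ← h]
      calc a ^ 2 ≤ (v Xp * b) ^ 2 := by gcongr
        _ = v Xp * v Xp * b ^ 2 := by rw [mul_pow, pow_two (v Xp)]
    have h5 : v (X₁ * X₂ - s) ^ 2 < a ^ 2 := pow_lt_pow_left₀ hn zero_le two_ne_zero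
    exact absurd h4 (not_le.mpr h5)
  · obtain ⟨h1, h3⟩ := main Xp Xm hy hprodv h hms
    exact ⟨v Xp, v Xm, Or.inl ⟨rfl, rfl⟩, h1, h3⟩

lemma node_step (v : Valuation L Γ₀) (hr : v r = 1) (h2 : v (2 : L) = 1) {X₁ X₂ Xp Xm : L}
    (h1s : v s < v X₁) (h11 : v X₁ < 1) (h2s : v s < v X₂) (h21 : v X₂ < 1)
    (hps : v s < v Xp) (hp1 : v Xp < 1) (hms : v s < v Xm) (hm1 : v Xm < 1)
    (hsum : (Xp + Xm) * (X₁ - X₂) ^ 2 = 2 * (X₁ + X₂) * (X₁ * X₂ + s) + 4 * r * (X₁ * X₂))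
    (hprod : Xp * Xm * (X₁ - X₂) ^ 2 = (X₁ * X₂ - s) ^ 2) :
    ∃ y z, ((v Xp = y ∧ v Xm = z) ∨ (v Xp = z ∧ v Xm = y)) ∧
      (y * v X₁ = v X₂ ∨ y * v X₂ = v X₁) ∧
      (z = v X₁ * v X₂ ∨ z * (v X₁ * v X₂) = v s ^ 2) := by
  rcases le_total (v X₂) (v X₁) with hle | hle
  · obtain ⟨y, z, h1, h3, h4⟩ := node_step_aux v hr h2 h11 h2s hps hp1 hms hm1 hle hsum hprod
    exact ⟨y, z, h1, Or.inl h3, h4⟩
  · obtain ⟨y, z, h1, h3, h4⟩ := node_step_aux (X₁ := X₂) (X₂ := X₁) v hr h2 h21 h1s hps hp1 hms hm1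
      hle (by linear_combination hsum) (by linear_combination hprod)
    refine ⟨y, z, h1, Or.inr h3, ?_⟩
    rw [mul_comm (v X₁)]
    exact h4

lemma node_dbl (v : Valuation L Γ₀) (hr : v r = 1) (h2 : v (2 : L) = 1) {X X' η : L}
    (hXs : v s < v X) (hX1 : v X < 1) (hX's : v s < v X')
    (heq : η ^ 2 = X ^ 3 + r * X ^ 2 + s * X)
    (hd : X' * (4 * η ^ 2) = (X ^ 2 - s) ^ 2) :
    v X' = v X ^ 2 ∨ v X' * v X ^ 2 = v s ^ 2 := by
  set a := v X with ha
  have ha0 : 0 < a := lt_of_le_of_lt zero_le hXs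
  have haa : a ^ 2 < a := by
    rw [pow_two]
    calc a * a < 1 * a := mul_lt_mul_of_pos_right hX1 ha0
      _ = a := one_mul a
  have h1 : v (X ^ 2 + r * X + s) = a := by
    have e1 : v (r * X) = a := by rw [map_mul, hr, one_mul]
    have e2 : v (X ^ 2 + r * X) = a := by
      rw [v.map_add_eq_of_lt_right (by rw [e1, map_pow]; exact haa), e1]
    rw [v.map_add_eq_of_lt_left (by rw [e2]; exact hXs), e2]
  have h3 : v (4 * η ^ 2) = a ^ 2 := by
    rw [heq, map_mul, val_four v h2, one_mul,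
      show X ^ 3 + r * X ^ 2 + s * X = X * (X ^ 2 + r * X + s) by ring, map_mul, h1, pow_two]
  have h4 : v X' * a ^ 2 = v (X ^ 2 - s) ^ 2 := by
    have h := congrArg v hd
    rw [map_mul, h3, map_pow] at h
    exact h
  rcases lt_trichotomy (a ^ 2) (v s) with h | h | h
  · right
    have : v (X ^ 2 - s) = v s := by
      apply v.map_sub_eq_of_lt_right
      rw [map_pow]; exact h
    rw [h4, this]
  · exfalso
    have hle' : v (X ^ 2 - s) ≤ v s := by
      apply v.map_sub_le _ le_rfl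
      rw [map_pow]; exact h.le
    have h5 : v X' * a ^ 2 ≤ v s * a ^ 2 := by
      rw [h4, pow_two]
      calc v (X ^ 2 - s) * v (X ^ 2 - s) ≤ v s * v s := by gcongr
        _ = v s * a ^ 2 := by rw [h]
    have h6 : v X' ≤ v s := le_of_mul_le_mul_right h5 (pow_pos ha0 2)
    exact absurd h6 (not_le.mpr hX's)
  · left
    have : v (X ^ 2 - s) = a ^ 2 := by
      rw [v.map_sub_eq_of_lt_left (by rw [map_pow]; exact h), map_pow]
    rw [this, pow_two (a ^ 2)] at h4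
    exact mul_right_cancel₀ (pow_pos ha0 2).ne' h4

end Fermat.Agent.S05
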